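import Fermat.Agent.S15.F.Word

/-!
# S15 / F / Proj : the Eisenstein projector

`V` a finite abelian group with commuting endomorphisms `T x` (`x : X`), `μ x : ℤ`.  There is a word `t` in the `T x` which is a projector of `V`
onto `⨅ x, maxGenEigenspace (T x) (μ x)`.

PROOF.  (a) for `f = T x - μ x` the powers `f, f², …` in the finite set `V → V` repeat, so some power `f ^ n`, `n ≥ 1`, is idempotent
(`f^a = f^(a+b)`, `b ≥ 1` ⟹ `f^(ab)` is idempotent, if `a ≥ 1`).  Then `ker f^k ≤ ker f^n` for all `k` (`f^k v = 0 ⟹ f^(nk) v = 0`, and `f^(nk) = f^n`),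
so `π_x := 1 - f^n` is an idempotent, equal to `1` on `maxGenEigenspace` and with image in `ker f^n`.
(b) the subgroups `⨅ x ∈ S, maxGenEigenspace ..` (`S` a finite set of indices) form a family of subsets of the finite set `V`, closed under intersection: take `S` with
minimal cardinality of the intersection; then it equals the full infimum.
(c) `t := ∏_{x ∈ S} (1 - (ι x - μ x) ^ (n x))` (a product over a list); the factors commute on `V` (`lift_comm`); for `v` in the infimum all factors fix `v`;
for arbitrary `v`, `t v ∈ ker (f_x ^ n_x)` for each `x ∈ S` (move the factor `x` to the front).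
-/

set_option autoImplicit false

open AlgebraicCurve ModularCurve

namespace Fermat.Agent.S15.F

open Fermat.Agent.ES

noncomputable section

/-! ### TASK S15/F-Proj-a -/

/-- some power `f ^ n`, `n ≥ 1`, of an endomorphism of a finite group is idempotent. -/
theorem exists_idempotent_pow_end {V : Type*} [AddCommGroup V] [Finite V] (f : Module.End ℤ V) :
    ∃ n : ℕ, 0 < n ∧ f ^ n * f ^ n = f ^ n := by
  haveI : Finite (Module.End ℤ V) := DFunLike.finite (V →ₗ[ℤ] V)
  obtain ⟨a, b, hab, h⟩ := Finite.exists_ne_map_eq_of_infinite (fun n : ℕ => f ^ (n + 1))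
  have key : ∀ a c : ℕ, 0 < a → 0 < c → f ^ a = f ^ (a + c) →
      ∃ n : ℕ, 0 < n ∧ f ^ n * f ^ n = f ^ n := by
    intro a c ha hc h
    have h1 : ∀ k : ℕ, f ^ (a + k * c) = f ^ a := by
      intro k
      induction k with
      | zero => simp
      | succ k ih =>
        have : a + (k + 1) * c = (a + c) + k * c := by ring
        rw [this, pow_add, ← h, ← pow_add, ih]
    refine ⟨a * c, Nat.mul_pos ha hc, ?_⟩
    have h2 : a ≤ a * c := Nat.le_mul_of_pos_right a hc
    obtain ⟨d, hd⟩ := Nat.exists_eq_add_of_le h2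
    rw [← pow_add]
    have h3 : a * c + a * c = (a + a * c) + d := by omega
    rw [h3, pow_add, h1, ← pow_add, ← hd]
  rcases lt_or_gt_of_ne hab with hlt | hlt
  · obtain ⟨c, hc⟩ := Nat.exists_eq_add_of_lt hlt
    refine key (a + 1) (c + 1) (Nat.succ_pos _) (Nat.succ_pos _) ?_
    rw [h]
    congr 1
    omega
  · obtain ⟨c, hc⟩ := Nat.exists_eq_add_of_lt hlt
    refine key (b + 1) (c + 1) (Nat.succ_pos _) (Nat.succ_pos _) ?_
    rw [← h]
    congr 1
    omega

/-- the projector for one operator. -/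
theorem exists_pow_projector {V : Type*} [AddCommGroup V] [Finite V] (T : Module.End ℤ V) (μ : ℤ) :
    ∃ n : ℕ, (∀ v, (1 - (T - μ • 1) ^ n) v ∈ T.maxGenEigenspace μ) ∧
      ∀ v ∈ T.maxGenEigenspace μ, (1 - (T - μ • 1) ^ n) v = v := by
  obtain ⟨n, hn, he⟩ := exists_idempotent_pow_end (T - μ • 1)
  refine ⟨n, fun v => ?_, fun v hv => ?_⟩
  · rw [Module.End.mem_maxGenEigenspace]
    refine ⟨n, ?_⟩
    rw [← Module.End.mul_apply, mul_sub, mul_one, he, sub_self]
    rfl
  · rw [Module.End.mem_maxGenEigenspace] at hv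
    obtain ⟨k, hk⟩ := hv
    have h1 : ∀ j : ℕ, 0 < j → ((T - μ • 1) ^ n) ^ j = (T - μ • 1) ^ n := by
      intro j hj
      induction j with
      | zero => exact absurd hj (lt_irrefl _)
      | succ j ih =>
        rcases Nat.eq_zero_or_pos j with rfl | hj'
        · simp
        · rw [pow_succ, ih hj', he]
    have h2 : ((T - μ • 1) ^ n) v = 0 := by
      rcases Nat.eq_zero_or_pos k with rfl | hk'
      · have : v = 0 := by simpa using hk
        rw [this, map_zero]
      · rw [← h1 k hk', ← pow_mul]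
        have h3 : k ≤ n * k := Nat.le_mul_of_pos_left k hn
        obtain ⟨d, hd⟩ := Nat.exists_eq_add_of_le h3
        rw [hd, add_comm, pow_add, Module.End.mul_apply, hk, map_zero]
    rw [LinearMap.sub_apply, h2, sub_zero]
    rfl

/-! ### TASK S15/F-Proj-b -/

/-- finitely many indices suffice. -/
theorem exists_finset_iInf {V X : Type*} [AddCommGroup V] [Finite V] (W : X → Submodule ℤ V) :
    ∃ S : Finset X, ⨅ x ∈ S, W x = ⨅ x, W x := by
  classical
  haveI := Fintype.ofFinite V
  have h : ∀ v : V, v ∉ ⨅ x, W x → ∃ x, v ∉ W x := by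
    intro v hv
    simpa [Submodule.mem_iInf] using hv
  by_cases hX : Nonempty X
  · obtain ⟨x₀⟩ := hX
    let c : V → X := fun v => if hv : v ∉ ⨅ x, W x then (h v hv).choose else x₀
    refine ⟨Finset.univ.image c, le_antisymm ?_ ?_⟩
    · intro v hv
      by_contra hv'
      have h1 : v ∈ W (c v) := by
        simp only [Submodule.mem_iInf] at hv
        exact hv (c v) (Finset.mem_image_of_mem _ (Finset.mem_univ _))
      have h2 : c v = (h v hv').choose := dif_pos hv'
      rw [h2] at h1
      exact (h v hv').choose_spec h1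
    · exact le_iInf₂ fun x _ => iInf_le _ x
  · refine ⟨∅, ?_⟩
    haveI := not_nonempty_iff.mp hX
    simp [iInf_of_empty]

/-- (helper) the projector for a finite set of indices. -/
theorem ProjB_exists_projector_finset {V X : Type*} [AddCommGroup V] [Finite V]
    (T : X → Module.End ℤ V) (hT : ∀ x y v, T x (T y v) = T y (T x v)) (μ : X → ℤ)
    (S : Finset X) :
    ∃ t : FreeAlgebra ℤ X,
      (∀ v, FreeAlgebra.lift ℤ T t v ∈ ⨅ x ∈ S, (T x).maxGenEigenspace (μ x)) ∧
      ∀ v ∈ ⨅ x ∈ S, (T x).maxGenEigenspace (μ x), FreeAlgebra.lift ℤ T t v = v := by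
  classical
  induction S using Finset.induction_on with
  | empty => exact ⟨1, by simp, by simp⟩
  | insert x S _ ih =>
    obtain ⟨t, ht1, ht2⟩ := ih
    obtain ⟨n, hn1, hn2⟩ := exists_pow_projector (T x) (μ x)
    set q : FreeAlgebra ℤ X :=
      1 - (FreeAlgebra.ι ℤ x - algebraMap ℤ (FreeAlgebra ℤ X) (μ x)) ^ n with hq
    have hlq : FreeAlgebra.lift ℤ T q = 1 - (T x - μ x • 1) ^ n := by
      rw [hq]
      simp [map_sub, map_pow, FreeAlgebra.lift_ι_apply, Algebra.algebraMap_eq_smul_one]
    refine ⟨q * t, fun v => ?_, fun v hv => ?_⟩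
    · rw [Finset.iInf_insert, Submodule.mem_inf, map_mul, Module.End.mul_apply]
      refine ⟨?_, ?_⟩
      · rw [hlq]
        exact hn1 _
      · rw [lift_comm T hT]
        exact ht1 _
    · rw [Finset.iInf_insert, Submodule.mem_inf] at hv
      rw [map_mul, Module.End.mul_apply, ht2 v hv.2, hlq]
      exact hn2 v hv.1

/-- **the abstract projector**. -/
theorem exists_projector_abs {V X : Type*} [AddCommGroup V] [Finite V] (T : X → Module.End ℤ V)
    (hT : ∀ x y v, T x (T y v) = T y (T x v)) (μ : X → ℤ) :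
    ∃ t : FreeAlgebra ℤ X,
      (∀ v, FreeAlgebra.lift ℤ T t v ∈ ⨅ x, (T x).maxGenEigenspace (μ x)) ∧
      ∀ v ∈ ⨅ x, (T x).maxGenEigenspace (μ x), FreeAlgebra.lift ℤ T t v = v := by
  obtain ⟨S, hS⟩ := exists_finset_iInf (fun x => (T x).maxGenEigenspace (μ x))
  rw [← hS]
  exact ProjB_exists_projector_finset T hT μ S

variable (p e : ℕ) [NeZero p]

/-- **the Eisenstein projector** on `Kum p e`. -/
theorem exists_projector [Finite (Kum p e)] :
    ∃ t : HW p e, (∀ x, actK p e t x ∈ Eis p e) ∧ ∀ x ∈ Eis p e, actK p e t x = x :=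
  exists_projector_abs (TK p e) (TK_comm p e) (fun r => ((1 + r.1 : ℕ) : ℤ))

/-! ### TASK S15/F-Proj-c : the pairing on `Eis` -/

/-- words are self adjoint (the `T_r` are, and they commute). -/
theorem actK_adj {β : Kum p e →+ Kum p e →+ Additive Qbˣ} (hβ : IsPairing p e β) (t : HW p e)
    (a b : Kum p e) : β (actK p e t a) b = β a (actK p e t b) := by
  induction t using FreeAlgebra.induction generalizing a b with
  | grade0 r => simp [Algebra.algebraMap_eq_smul_one]
  | grade1 x => simpa [actK] using hβ.adj x a b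
  | mul s t hs ht =>
    rw [map_mul, Module.End.mul_apply, Module.End.mul_apply, hs, ht, actK_comm]
  | add s t hs ht => simp [map_add, hs, ht]

/-- the pairing is non degenerate on `Eis`. -/
theorem eis_nondeg [Finite (Kum p e)] {β : Kum p e →+ Kum p e →+ Additive Qbˣ}
    (hβ : IsPairing p e β) (a : Kum p e) (ha : a ∈ Eis p e) (ha0 : a ≠ 0) :
    ∃ b ∈ Eis p e, β a b ≠ 0 := by
  obtain ⟨t, ht1, ht2⟩ := exists_projector p e
  obtain ⟨b, hb⟩ := hβ.nondeg a ha0
  refine ⟨actK p e t b, ht1 b, ?_⟩
  rw [← actK_adj p e hβ, ht2 a ha]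
  exact hb

end

end Fermat.Agent.S15.F
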