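import Fermat.Agent.S15.F.Word

/-!
# S15 / F / Te : `T_e` is bijective on `Eis p e` (consumed by Part B)

`η = T_e - (1 + e)` is nilpotent on `Eis` and `e Eis = 0`, so `T_e = 1 + η` there; `∑ (-η)^i` is an inverse.
-/

set_option autoImplicit false

open AlgebraicCurve ModularCurve

namespace Fermat.Agent.S15.F

open Fermat.Agent.ES

noncomputable section

variable (p e : ℕ) [NeZero p]

theorem Te_pow_mem (f : Module.End ℤ (Kum p e)) (hf : ∀ a ∈ Eis p e, f a ∈ Eis p e) (i : ℕ)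
    {a : Kum p e} (ha : a ∈ Eis p e) : (f ^ i) a ∈ Eis p e := by
  induction i with
  | zero => simpa using ha
  | succ i ih => rw [pow_succ', Module.End.mul_apply]; exact hf _ ih

theorem Te_sum_mem (f : Module.End ℤ (Kum p e)) (hf : ∀ a ∈ Eis p e, f a ∈ Eis p e) (k : ℕ)
    {a : Kum p e} (ha : a ∈ Eis p e) : (∑ i ∈ Finset.range k, f ^ i) a ∈ Eis p e := by
  rw [LinearMap.sum_apply]
  exact (Eis p e).sum_mem fun i _ => Te_pow_mem p e f hf i ha

/-- `T_e` is onto on `Eis`. -/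
theorem TK_e_surj (r : Idx p e) (hr : r.1 = e) (y : Kum p e) (hy : y ∈ Eis p e) :
    ∃ y' ∈ Eis p e, TK p e r y' = y := by
  obtain ⟨k, hk⟩ := (mem_Eis p e).mp hy r
  set η : Module.End ℤ (Kum p e) := TK p e r - ((1 + r.1 : ℕ) : ℤ) • 1 with hη
  have hηmem : ∀ a ∈ Eis p e, (-η) a ∈ Eis p e := by
    intro a ha
    rw [LinearMap.neg_apply, hη, LinearMap.sub_apply, LinearMap.smul_apply, Module.End.one_apply]
    exact (Eis p e).neg_mem ((Eis p e).sub_mem (TK_mem_Eis p e r ha) ((Eis p e).zsmul_mem ha _))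
  have hT : ∀ a : Kum p e, TK p e r a = a + η a := by
    intro a
    rw [hη, LinearMap.sub_apply, LinearMap.smul_apply, Module.End.one_apply, natCast_zsmul, hr,
      add_smul, one_smul, Kum.nsmul_eq_zero, add_zero]
    abel
  refine ⟨(∑ i ∈ Finset.range k, (-η) ^ i) y, Te_sum_mem p e (-η) hηmem k hy, ?_⟩
  have h1 : (∑ i ∈ Finset.range k, (-η) ^ i) * (-η - 1) = (-η) ^ k - 1 := geom_sum_mul (-η) k
  have h2 : (-η - 1) * (∑ i ∈ Finset.range k, (-η) ^ i) = (-η) ^ k - 1 := by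
    rw [← h1]
    exact ((Commute.sum_right _ _ _ fun i _ =>
      ((Commute.refl (-η)).pow_right i).sub_left (Commute.one_left _))).eq
  have h3 := congrArg (fun f : Module.End ℤ (Kum p e) => f y) h2
  simp only [Module.End.mul_apply, LinearMap.sub_apply, LinearMap.neg_apply,
    Module.End.one_apply] at h3
  have h4 : ((-η) ^ k) y = 0 := by
    rw [neg_pow, Module.End.mul_apply, hk, map_zero]
  rw [h4] at h3
  rw [hT]
  have h5 : ∀ u v : Kum p e, -v - u = 0 - y → u + v = y := by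
    intro u v h
    have : -(u + v) = -y := by rw [neg_add_rev, ← sub_eq_add_neg, h, zero_sub]
    exact neg_injective this
  exact h5 _ _ h3

/-- the shape of `B/Export`. -/
theorem heckeKum_e_mem [NeZero e] (he : e.Prime) (hep : ¬ e ∣ p) (y : Kum p e) (hy : y ∈ Eis p e) :
    heckeKum p e he hep e y ∈ Eis p e :=
  TK_mem_Eis p e (⟨e, he, hep⟩ : Idx p e) hy

theorem heckeKum_e_surj [NeZero e] (he : e.Prime) (hep : ¬ e ∣ p) (y : Kum p e) (hy : y ∈ Eis p e) :
    ∃ y' ∈ Eis p e, heckeKum p e he hep e y' = y :=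
  TK_e_surj p e (⟨e, he, hep⟩ : Idx p e) rfl y hy

end

end Fermat.Agent.S15.F
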