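import Fermat.Agent.S15.F.Main
import Fermat.Agent.S15.T.Defs

/-!
# S15 / F / Export : `T.FOut p e` (the shape in which Part T consumes Part F)
-/

set_option autoImplicit false

open AlgebraicCurve ModularCurve

namespace Fermat.Agent.S15.F

open Fermat.Agent.ES

noncomputable section

/-- words act on a common eigenvector through the corresponding character. -/
theorem lift_eigen {X A : Type*} [AddCommGroup A] (f : X → Module.End ℤ A) (μ : X → ℤ) (z : A)
    (h : ∀ x, f x z = μ x • z) (t : FreeAlgebra ℤ X) :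
    FreeAlgebra.lift ℤ f t z = (FreeAlgebra.lift ℤ μ t : ℤ) • z := by
  induction t using FreeAlgebra.induction with
  | grade0 r => simp
  | grade1 x => simpa using h x
  | mul s t hs ht =>
    rw [map_mul, map_mul, Module.End.mul_apply, ht, map_zsmul, hs, smul_smul, mul_comm]
  | add s t hs ht => rw [map_add, map_add, LinearMap.add_apply, hs, ht, add_smul]

variable (p e : ℕ) [NeZero p]

/-- an eigenvector of all `T_r` with eigenvalues `1 + r` in `J₀(p)[e]` comes from `Eis`. -/
theorem exists_mem_Eis (he : 0 < e) (z : JZero p) (hz : e • z = 0)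
    (h : ∀ r : Idx p e, TJ p e r z = (r.1 + 1) • z) : ∃ v ∈ Eis p e, kap p e he v = z := by
  obtain ⟨v, rfl⟩ := kap_surj p e he z hz
  refine ⟨v, (mem_Eis p e).mpr fun r => ⟨1, ?_⟩, rfl⟩
  apply kap_injective p e he
  rw [pow_one, LinearMap.sub_apply, map_sub, kap_TK, h r, map_zero, LinearMap.smul_apply,
    Module.End.one_apply, map_zsmul, natCast_zsmul, add_comm, sub_self]

/-- **Part F in the shape consumed by Part T.** -/
theorem fOut (hp : p.Prime) (hp5 : 5 ≤ p) (he : e.Prime) (hep : e ≠ p)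
    {Ae Ap : ValuationSubring Qb} (hAe : Ae.LiesOverPrime e) (hAp : Ap.LiesOverPrime p)
    {β : Kum p e →+ Kum p e →+ Additive Qbˣ} (hβ : IsPairing p e β)
    {G0 TT : AddSubgroup (Kum p e)} (hE : IsLocE p e Ae β G0) (hP : IsLocP p e Ap β TT) :
    T.FOut p e := by
  obtain ⟨s, hs1, hs2⟩ := main p e hp hp5 he hep hAe hAp hβ hE hP
  refine ⟨(actJ p e s).toAddMonoidHom,
    FreeAlgebra.lift ℤ (fun r : Idx p e => ((r.1 + 1 : ℕ) : ℤ)) s, ?_, ?_, ?_, hs2⟩
  · intro K hK z hz
    exact lift_mem (TJ p e) K (fun r a ha => hK ⟨r.1, r.2.1⟩ r.2.2 a ha) s hz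
  · intro z hz
    exact lift_eigen (TJ p e) _ z (fun r => by
      rw [natCast_zsmul]
      exact hz ⟨r.1, r.2.1⟩ r.2.2) s
  · intro z hze hz
    obtain ⟨v, hv, rfl⟩ := exists_mem_Eis p e he.pos z hze (fun r => hz ⟨r.1, r.2.1⟩ r.2.2)
    change actJ p e s (kap p e he.pos v) = _
    rw [← kap_actK, hs1 v hv]

end

end Fermat.Agent.S15.F
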