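import Fermat.Agent.S15.F.Word

/-!
# S15 / F / Nil : `(σ - 1)(σ - χ σ)` is nilpotent on `Eis` (the hypothesis `hnil` of `S15.D.card_sel_le_of_nilpotent`)

PROOF.  `V = Kum p e` is finite, so there is a number field `L` such that the action of `σ` on `V` and on `μ_e` only depends on `σ|L` (`exists_field`).
By `FrobPowerDensity`, `σ|L = φ^j|L`, `φ` a Frobenius element at a prime `ℓ ∤ p e`.  Eichler-Shimura (`ES.eichlerShimura_Kum`):
`φ² - T_ℓ φ + ℓ = 0` on `V`; with `η = T_ℓ - 1 - ℓ`: `(φ - 1)(φ - ℓ) = η φ`; `η` commutes with `φ` and is nilpotent on `Eis`.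
`(φ^j - 1)(φ^j - ℓ^j)` is a multiple of `(φ - 1)(φ - ℓ)` in `ℤ[φ]`; `χ σ = ℓ^j` mod `e` (`frob_zeta`), `e V = 0`.
-/

set_option autoImplicit false

open AlgebraicCurve ModularCurve

namespace Fermat.Agent.S15.F

open Fermat.Agent.ES

noncomputable section

/-! ### TASK S15/F-Nil-a (Mathlib only) -/

/-- (helper) polynomials in `φ` commute with `η`. -/
theorem NilA_commute_aeval {V : Type*} [AddCommGroup V] (φ η : Module.End ℤ V) (hc : Commute φ η)
    (P : Polynomial ℤ) : Commute (Polynomial.aeval φ P) η := by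
  induction P using Polynomial.induction_on' with
  | add p q hp hq => rw [map_add]; exact hp.add_left hq
  | monomial n a =>
    rw [Polynomial.aeval_monomial]
    exact (Algebra.commute_algebraMap_left a η).mul_left (hc.pow_left n)

/-- abstract algebra.  `(φ-1)(φ-l) = η φ`; `φ^j - 1 = (φ-1) A`, `φ^j - l^j = (φ-l) B` (`Commute.mul_geom_sum₂` / `Commute.geom_sum₂_mul`), everything commutes. -/
theorem nil_abs {V : Type*} [AddCommGroup V] (φ η : Module.End ℤ V) (l : ℤ) (hc : Commute φ η)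
    (hES : φ * φ - ((1 + l) • 1 + η) * φ + l • 1 = 0) (j k : ℕ) (x : V) (hx : (η ^ k) x = 0) :
    (((φ ^ j - 1) * (φ ^ j - (l ^ j) • 1)) ^ k) x = 0 := by
  obtain ⟨C1, hC1⟩ : (Polynomial.X - 1 : Polynomial ℤ) ∣ Polynomial.X ^ j - 1 := by
    simpa using sub_dvd_pow_sub_pow (Polynomial.X : Polynomial ℤ) 1 j
  obtain ⟨C2, hC2⟩ : (Polynomial.X - Polynomial.C l : Polynomial ℤ) ∣
      Polynomial.X ^ j - Polynomial.C l ^ j := sub_dvd_pow_sub_pow _ _ j
  have h3 : (φ - 1) * (φ - l • 1) = η * φ := by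
    have : (φ - 1) * (φ - l • 1) = (φ * φ - ((1 + l) • 1 + η) * φ + l • 1) + η * φ := by
      simp only [sub_mul, mul_sub, add_mul, add_smul, one_mul, mul_one, one_smul, smul_mul_assoc,
        mul_smul_comm, smul_sub]
      abel
    rw [this, hES, zero_add]
  have hM : (φ ^ j - 1) * (φ ^ j - (l ^ j) • 1) = (φ * Polynomial.aeval φ (C1 * C2)) * η := by
    have e1 : (φ ^ j - 1) * (φ ^ j - (l ^ j) • 1) =
        Polynomial.aeval φ ((Polynomial.X ^ j - 1) * (Polynomial.X ^ j - Polynomial.C l ^ j)) := by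
      simp [Algebra.algebraMap_eq_smul_one, smul_pow]
    have e2 : ((Polynomial.X ^ j - 1) * (Polynomial.X ^ j - Polynomial.C l ^ j) : Polynomial ℤ) =
        ((Polynomial.X - 1) * (Polynomial.X - Polynomial.C l)) * (C1 * C2) := by
      rw [hC1, hC2]; ring
    have e3 : Polynomial.aeval φ ((Polynomial.X - 1) * (Polynomial.X - Polynomial.C l) :
        Polynomial ℤ) = (φ - 1) * (φ - l • 1) := by
      simp [Algebra.algebraMap_eq_smul_one]
    rw [e1, e2, map_mul, e3, h3, mul_assoc]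
    exact ((hc.mul_left (NilA_commute_aeval φ η hc _))).symm.eq
  rw [hM, (hc.mul_left (NilA_commute_aeval φ η hc _)).mul_pow, Module.End.mul_apply, hx, map_zero]

variable (p e : ℕ) [NeZero p]

/-! ### TASK S15/F-Nil-b -/

/-- a number field through which the action on `Kum p e` and on `μ_e` factors
(`ES.galKum_smooth` for each of the finitely many `x`, `IntermediateField.adjoin` of the finitely many `e`-th roots of unity; compositum:
`IntermediateField.finiteDimensional_iSup_of_finset'`; if `σ, τ` agree on `L` then `τ⁻¹ σ` fixes `L`). -/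
theorem exists_field [Finite (Kum p e)] (he : 0 < e) :
    ∃ L : IntermediateField ℚ Qb, FiniteDimensional ℚ L ∧ ∀ σ τ : GQ, (∀ y ∈ L, σ y = τ y) →
      (∀ x : Kum p e, galKum p e σ x = galKum p e τ x) ∧ ∀ ζ : Qb, ζ ^ e = 1 → σ ζ = τ ζ := by
  classical
  choose Lx hLx1 hLx2 using fun x : Kum p e => galKum_smooth (N := p) (m := e) x
  have hfin : {ζ : Qb | ζ ^ e = 1}.Finite := by
    have : {ζ : Qb | ζ ^ e = 1} ⊆ ((Polynomial.nthRoots e (1 : Qb)).toFinset : Set Qb) := by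
      intro ζ hζ
      simp only [Finset.mem_coe, Multiset.mem_toFinset]
      exact (Polynomial.mem_nthRoots he).mpr hζ
    exact (Finset.finite_toSet _).subset this
  have hL0 : FiniteDimensional ℚ (IntermediateField.adjoin ℚ {ζ : Qb | ζ ^ e = 1}) := by
    have := hfin.to_subtype
    exact IntermediateField.finiteDimensional_adjoin
      (fun x _ => (ES.D.isAlgebraic_Qb.isAlgebraic x).isIntegral)
  have hL1 : FiniteDimensional ℚ (⨆ x, Lx x : IntermediateField ℚ Qb) :=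
    IntermediateField.finiteDimensional_iSup_of_finite
  refine ⟨IntermediateField.adjoin ℚ {ζ : Qb | ζ ^ e = 1} ⊔ ⨆ x, Lx x,
    IntermediateField.finiteDimensional_sup _ _, ?_⟩
  intro σ τ h
  refine ⟨fun x => ?_, fun ζ hζ => ?_⟩
  · have h1 : galKum p e (τ⁻¹ * σ) x = x := by
      refine hLx2 x _ (fun y hy => ?_)
      have hy' : y ∈ IntermediateField.adjoin ℚ {ζ : Qb | ζ ^ e = 1} ⊔ ⨆ x, Lx x :=
        (le_sup_right : (⨆ x, Lx x) ≤ _) ((le_iSup Lx x) hy)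
      show τ⁻¹ (σ y) = y
      rw [h y hy']
      exact τ.symm_apply_apply y
    have h2 : galKum p e σ x = galKum p e (τ * (τ⁻¹ * σ)) x := by rw [mul_inv_cancel_left]
    rw [h2, galKum_mul, h1]
  · exact h ζ ((le_sup_left : IntermediateField.adjoin ℚ {ζ : Qb | ζ ^ e = 1} ≤ _)
      (IntermediateField.subset_adjoin _ _ hζ))

/-- a Frobenius element at `ℓ ∤ e` raises the `e`-th roots of unity to the power `ℓ`
(`import Fermat.Agent.ES.D.Cyclo`: `frobenius_spec`, `eq_of_pow_eq_one_of_val_lt`, `val_le_one_of_pow_eq_one`). -/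
theorem frob_zeta {A : ValuationSubring Qb} {φ : GQ} {ℓ : ℕ} (hℓ : ℓ.Prime) (hA : A.LiesOverPrime ℓ)
    (hφ : A.IsFrobeniusAt φ ℓ) (he : 0 < e) (hℓe : ¬ ℓ ∣ e) (ζ : Qb) (hζ : ζ ^ e = 1) : φ ζ = ζ ^ ℓ := by
  apply ES.D.eq_of_pow_eq_one_of_val_lt hℓ hA hℓe _ _ he.ne'
    (ES.D.frobenius_spec hφ ζ (ES.D.val_le_one_of_pow_eq_one A he.ne' hζ))
  · rw [← map_pow, hζ, map_one]
  · rw [← pow_mul, mul_comm, pow_mul, hζ, one_pow]

/-- the value of the cyclotomic character on `σ` with `σ = φ^j` on `μ_e`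
(take a primitive `e`-th root of unity `ζ` (`ES.exists_primitiveRoot_Qb`): `ζ^(χ σ).val = σ ζ = ζ^(ℓ^j)`; `IsPrimitiveRoot.pow_inj` / `ZMod.natCast_eq_natCast_iff`). -/
theorem chi_eq_pow {χ : GQ → ZMod e} (hχ : S15.D.IsCyc e χ) (he : 0 < e) (σ : GQ) (n : ℕ)
    (h : ∀ ζ : Qb, ζ ^ e = 1 → σ ζ = ζ ^ n) : χ σ = (n : ZMod e) := by
  haveI : NeZero e := ⟨he.ne'⟩
  obtain ⟨ζ, hζ⟩ := ES.exists_primitiveRoot_Qb e
  have h1 := hχ σ ζ hζ.pow_eq_one
  rw [h ζ hζ.pow_eq_one] at h1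
  have hfo : IsOfFinOrder ζ := isOfFinOrder_iff_pow_eq_one.mpr ⟨e, he, hζ.pow_eq_one⟩
  have h2 : n ≡ (χ σ).val [MOD e] := by
    have := hfo.pow_eq_pow_iff_modEq.mp h1
    rwa [← hζ.eq_orderOf] at this
  have h3 := (ZMod.natCast_eq_natCast_iff _ _ _).mpr h2
  rw [ZMod.natCast_val, ZMod.cast_id', id] at h3
  exact h3.symm

/-! ### TASK S15/F-Nil-c -/

/-- uniform nilpotency exponent of `η_r` on `Eis` (finiteness). -/
theorem exists_eta_pow [Finite (Kum p e)] (r : Idx p e) :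
    ∃ k : ℕ, ∀ x ∈ Eis p e, ((TK p e r - ((1 + r.1 : ℕ) : ℤ) • 1) ^ k) x = 0 := by
  classical
  have := Fintype.ofFinite (Kum p e)
  have h : ∀ x : Kum p e, ∃ k : ℕ, x ∈ Eis p e →
      ((TK p e r - ((1 + r.1 : ℕ) : ℤ) • 1) ^ k) x = 0 := by
    intro x
    by_cases hx : x ∈ Eis p e
    · obtain ⟨k, hk⟩ := (mem_Eis p e).1 hx r
      exact ⟨k, fun _ => hk⟩
    · exact ⟨0, fun h => absurd h hx⟩
  choose kf hkf using h
  refine ⟨Finset.univ.sup kf, fun x hx => ?_⟩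
  have hle : kf x ≤ Finset.univ.sup kf := Finset.le_sup (Finset.mem_univ x)
  obtain ⟨d, hd⟩ := Nat.exists_eq_add_of_le hle
  rw [hd, add_comm (kf x) d, pow_add, Module.End.mul_apply, hkf x hx, map_zero]

omit [NeZero p] in
/-- (helper) `e` kills `Kum p e`. -/
theorem NilC_mod_smul (n : ℕ) (y : Kum p e) : (n % e) • y = n • y := by
  conv_rhs => rw [← Nat.mod_add_div n e, add_smul, mul_comm, mul_smul, Kum.nsmul_eq_zero,
    smul_zero, add_zero]

/-- `eisOp χ σ` in terms of the linear operator `galRepZ σ`, when `χ σ = n` mod `e`. -/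
theorem eisOp_eq {χ : GQ → ZMod e} (σ : GQ) (n : ℕ) (hn : χ σ = (n : ZMod e)) (x : Kum p e) :
    S15.D.eisOp χ σ x
      = ((galRepZ p e σ - 1) * (galRepZ p e σ - ((n : ℤ)) • 1)) x := by
  have hv : (χ σ).val = n % e := by rw [hn, ZMod.val_natCast]
  unfold S15.D.eisOp
  rw [hv, add_smul, one_smul, NilC_mod_smul, NilC_mod_smul]
  simp only [smul_Kum_def, Module.End.mul_apply, LinearMap.sub_apply, Module.End.one_apply,
    LinearMap.smul_apply, galRepZ_apply, map_sub, natCast_zsmul, map_nsmul, smul_sub]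
  abel

/-- **the hypothesis `hnil` of Part D.** -/
theorem eisOp_nilpotent [Finite (Kum p e)] (he : e.Prime)
    (hcrux : ∀ ℓ : ℕ, ℓ.Prime → ¬ ℓ ∣ p * e → Crux p ℓ e) (hFD : ES.D.FrobPowerDensity)
    {χ : GQ → ZMod e} (hχ : S15.D.IsCyc e χ) (σ : GQ) :
    ∃ k : ℕ, ∀ x ∈ Eis p e, (S15.D.eisOp χ σ)^[k] x = 0 := by
  obtain ⟨L, hL, hLσ⟩ := exists_field p e he.pos
  obtain ⟨ℓ, A, φ, j, hℓ, hℓS, hA, hφ, hσφ⟩ := hFD L hL σ (p * e).primeFactors
  have hℓpe : ¬ ℓ ∣ p * e := by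
    intro h
    exact hℓS (Nat.mem_primeFactors.2 ⟨hℓ, h, mul_ne_zero (NeZero.ne p) he.ne_zero⟩)
  have hℓe : ¬ ℓ ∣ e := fun h => hℓpe (Dvd.dvd.mul_left h p)
  have hℓp : ¬ ℓ ∣ p := fun h => hℓpe (Dvd.dvd.mul_right h e)
  have : NeZero ℓ := ⟨hℓ.ne_zero⟩
  let r : Idx p e := ⟨ℓ, hℓ, fun h => hℓpe (Dvd.dvd.mul_right h e)⟩
  obtain ⟨k, hk⟩ := exists_eta_pow p e r
  refine ⟨k, fun x hx => ?_⟩
  obtain ⟨hσK, hσζ⟩ := hLσ σ (φ ^ j) hσφ
  have hpow : ∀ (i : ℕ) (ζ : Qb), ζ ^ e = 1 → (φ ^ i) ζ = ζ ^ (ℓ ^ i) := by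
    intro i
    induction i with
    | zero => intro ζ _; simp
    | succ i ih =>
      intro ζ hζ
      rw [pow_succ, AlgEquiv.mul_apply, frob_zeta e hℓ hA hφ he.pos hℓe ζ hζ, map_pow, ih ζ hζ,
        ← pow_mul, pow_succ]
  have hχσ : χ σ = ((ℓ ^ j : ℕ) : ZMod e) :=
    chi_eq_pow e hχ he.pos σ (ℓ ^ j) (fun ζ hζ => by rw [hσζ ζ hζ, hpow j ζ hζ])
  have hop : S15.D.eisOp χ σ
      = ⇑((galRepZ p e σ - 1) * (galRepZ p e σ - ((ℓ ^ j : ℕ) : ℤ) • 1)) :=
    funext (eisOp_eq p e σ _ hχσ)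
  have hG : galRepZ p e σ = galRepZ p e φ ^ j := by
    rw [← map_pow]
    exact LinearMap.ext (fun x => hσK x)
  rw [hop, ← Module.End.pow_apply, hG, Nat.cast_pow]
  refine nil_abs (galRepZ p e φ) (TK p e r - ((1 + r.1 : ℕ) : ℤ) • 1) (ℓ : ℤ) ?_ ?_ j k x (hk x hx)
  · refine Commute.sub_right ?_ ((Commute.one_right _).smul_right _)
    exact LinearMap.ext (fun y => TK_gal p e r φ y)
  · have h1 : ((1 + (ℓ : ℤ)) • (1 : Module.End ℤ (Kum p e)) + (TK p e r - ((1 + r.1 : ℕ) : ℤ) • 1))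
        = TK p e r := by
      have h2 : ((1 + r.1 : ℕ) : ℤ) = 1 + (ℓ : ℤ) := by push_cast; rfl
      rw [h2, add_sub_cancel]
    rw [h1]
    refine LinearMap.ext (fun y => ?_)
    have h3 := eichlerShimura_Kum he.ne_zero hℓ hℓp (hcrux ℓ hℓ hℓpe) A hA φ hφ y
    simp only [LinearMap.add_apply, LinearMap.sub_apply, Module.End.mul_apply, galRepZ_apply,
      LinearMap.smul_apply, Module.End.one_apply, LinearMap.zero_apply, natCast_zsmul]
    exact h3

end

end Fermat.Agent.S15.F
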