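import Fermat.Agent.S15.F.Proj
import Fermat.Agent.S15.F.Nil
import Fermat.Agent.S15.D.Main
import Fermat.Agent.S15.W.KumPair

/-!
# S15 / F / Count : `#Sel ≤ #Eis`
-/

set_option autoImplicit false

open AlgebraicCurve ModularCurve

namespace Fermat.Agent.S15.F

open Fermat.Agent.ES

noncomputable section

variable (p e : ℕ) [NeZero p]

theorem card_inf_sq_le [Finite (Kum p e)] (he : e.Prime) {β : Kum p e →+ Kum p e →+ Additive Qbˣ}
    (hβ : IsPairing p e β) (H : AddSubgroup (Kum p e))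
    (hiso : ∀ a ∈ H ⊓ Eis p e, ∀ b ∈ H ⊓ Eis p e, β a b = 0) :
    Nat.card ↥(H ⊓ Eis p e) ^ 2 ≤ Nat.card ↥(Eis p e) :=
  W.card_sq_le_of_isotropic he (fun x => Kum.nsmul_eq_zero x)
    (fun s hs => W.card_torsion_units_le he.ne_zero s hs) β (Eis p e) (H ⊓ Eis p e) inf_le_right
    (fun a ha ha0 => eis_nondeg p e hβ a ha ha0) hiso

theorem mul_le_of_sq_le {a b n : ℕ} (ha : a ^ 2 ≤ n) (hb : b ^ 2 ≤ n) : a * b ≤ n := by
  rcases le_total a b with h | h
  · calc a * b ≤ b * b := Nat.mul_le_mul_right b h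
      _ = b ^ 2 := (sq b).symm
      _ ≤ n := hb
  · calc a * b ≤ a * a := Nat.mul_le_mul_left a h
      _ = a ^ 2 := (sq a).symm
      _ ≤ n := ha

/-- **the count**: there are at most `#Eis` Selmer cocycles. -/
theorem card_sel_le_eis [Finite (Kum p e)] (hp : p.Prime) (he : e.Prime) (hep : e ≠ p)
    (hcrux : ∀ ℓ : ℕ, ℓ.Prime → ¬ ℓ ∣ p * e → Crux p ℓ e) (hFD : ES.D.FrobPowerDensity)
    {Ae Ap : ValuationSubring Qb} (hAe : Ae.LiesOverPrime e) (hAp : Ap.LiesOverPrime p)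
    {β : Kum p e →+ Kum p e →+ Additive Qbˣ} (hβ : IsPairing p e β)
    {G0 TT : AddSubgroup (Kum p e)} (hE : IsLocE p e Ae β G0) (hP : IsLocP p e Ap β TT) :
    Finite (S15.D.Sel e p Ae Ap (S15.D.smulAct (Kum p e)) (Eis p e) G0 TT) ∧
      Nat.card (S15.D.Sel e p Ae Ap (S15.D.smulAct (Kum p e)) (Eis p e) G0 TT)
        ≤ Nat.card ↥(Eis p e) := by
  haveI : Fact e.Prime := ⟨he⟩
  have hχ := S15.D.isCyc_cycloChar (e := e)
  have h := S15.D.card_sel_le_of_nilpotent he hp hep hAe hAp hχ (Eis p e)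
    (fun x _ => Kum.nsmul_eq_zero x) (fun σ x hx => gal_mem_Eis p e σ hx)
    (fun σ => eisOp_nilpotent p e he hcrux hFD hχ σ) G0 TT
  exact ⟨h.1, h.2.trans (mul_le_of_sq_le (card_inf_sq_le p e he hβ G0 hE.iso)
    (card_inf_sq_le p e he hβ TT hP.iso))⟩

end

end Fermat.Agent.S15.F
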