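import Fermat.Agent.S15.D.Defs
import Fermat.Agent.ES.B.ToD
import Fermat.Prelude.Def_ModularCurve_HeckeModule

/-!
# S15 / Part F : definitions and interfaces

`p` the level (a prime), `e ≠ p` a prime.  `V = ES.Kum p e` is the Kummer model of `J₀(p)[e]`.

* `Idx p e`           : the primes `r ∤ p` (`r = e` INCLUDED);
* `HW p e`            : (non commutative) words in the `T_r`, `r : Idx p e`;
* `actK`, `actU`, `actJ` : their actions on `Kum p e`, on `(FF p)ˣ` (additively), on `JZero p`;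
* `Eis p e`           : the generalised Eisenstein eigenspace `{x : ∀ r, ∃ k, (T_r - 1 - r) ^ k x = 0}` of `Kum p e`;
* `IsDD p e g`        : `σ g / g ∈ Dm p e` for all `σ`;  `coc p e g hg σ = [σ g / g]`;
* `IsPairing`, `IsLocE`, `IsLocP` : what Part F consumes from Parts W, B, P.
-/

set_option autoImplicit false

open AlgebraicCurve ModularCurve

namespace Fermat.Agent.S15.F

open Fermat.Agent.ES

noncomputable section

/-- the primes `r ∤ p` (INCLUDING `r = e`: Part B needs `T_e` unipotent on `Eis`). -/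
abbrev Idx (p : ℕ) (_e : ℕ) : Type := ES.D.GoodPrime p

variable (p e : ℕ) [NeZero p]

/-- (kept for compatibility) -/
def toGood (r : Idx p e) : ES.D.GoodPrime p := r

/-- words in the Hecke operators `T_r`, `r ∤ p`. -/
abbrev HW : Type := FreeAlgebra ℤ (Idx p e)

/-- `T_r` on `Kum p e`. -/
def TK (r : Idx p e) : Module.End ℤ (Kum p e) := heckeT p e (toGood p e r)

/-- `T_r` on `(FF p)ˣ`. -/
def TU (r : Idx p e) : Module.End ℤ (Additive (FF p)ˣ) :=
  haveI : NeZero r.1 := ⟨r.2.1.ne_zero⟩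
  (MonoidHom.toAdditive (heckeU p r.1 r.2.1 (toGood p e r).2.2)).toIntLinearMap

/-- `T_r` on `J₀(p)`. -/
def TJ (r : Idx p e) : Module.End ℤ (JZero p) := heckeOperatorBar p ⟨r.1, r.2.1⟩

/-- the action of words on `Kum p e`. -/
def actK : HW p e →ₐ[ℤ] Module.End ℤ (Kum p e) := FreeAlgebra.lift ℤ (TK p e)

/-- the action of words on `(FF p)ˣ`. -/
def actU : HW p e →ₐ[ℤ] Module.End ℤ (Additive (FF p)ˣ) := FreeAlgebra.lift ℤ (TU p e)

/-- the action of words on `J₀(p)`. -/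
def actJ : HW p e →ₐ[ℤ] Module.End ℤ (JZero p) := FreeAlgebra.lift ℤ (TJ p e)

/-- the generalised Eisenstein eigenspace of `Kum p e`. -/
def Eis : AddSubgroup (Kum p e) :=
  (⨅ r : Idx p e, (TK p e r).maxGenEigenspace ((1 + r.1 : ℕ) : ℤ)).toAddSubgroup

theorem mem_Eis {x : Kum p e} :
    x ∈ Eis p e ↔ ∀ r : Idx p e, ∃ k : ℕ, ((TK p e r - ((1 + r.1 : ℕ) : ℤ) • 1) ^ k) x = 0 := by
  simp only [Eis, Submodule.mem_toAddSubgroup, Submodule.mem_iInf, Module.End.mem_maxGenEigenspace]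

/-- the Galois action on `Kum p e`. -/
instance instDMAKum : DistribMulAction GQ (Kum p e) where
  smul σ x := galKum p e σ x
  one_smul x := galKum_one x
  mul_smul σ τ x := galKum_mul σ τ x
  smul_zero σ := map_zero _
  smul_add σ x y := map_add _ x y

theorem smul_Kum_def (σ : GQ) (x : Kum p e) : σ • x = galKum p e σ x := rfl

/-- `σ g / g ∈ Dm p e` for all `σ`. -/
def IsDD (g : (FF p)ˣ) : Prop := ∀ σ : GQ, galU p σ g / g ∈ Dm p e

/-- the Kummer cocycle `σ ↦ [σ g / g]`. -/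
def coc (g : (FF p)ˣ) (hg : IsDD p e g) (σ : GQ) : Kum p e := Kum.mk ⟨galU p σ g / g, hg σ⟩

/-- **consumed from Part W** (`β = W.e1Hom`). -/
structure IsPairing (β : Kum p e →+ Kum p e →+ Additive Qbˣ) : Prop where
  nondeg : ∀ a : Kum p e, a ≠ 0 → ∃ b : Kum p e, β a b ≠ 0
  adj : ∀ (r : Idx p e) (a b : Kum p e), β (TK p e r a) b = β a (TK p e r b)

/-- **consumed from Part B** (the prime `e`). -/
structure IsLocE (Ae : ValuationSubring Qb) (β : Kum p e →+ Kum p e →+ Additive Qbˣ)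
    (G0 : AddSubgroup (Kum p e)) : Prop where
  inertia : ∀ (g : (FF p)ˣ) (hg : IsDD p e g), (∀ σ, coc p e g hg σ ∈ Eis p e) →
    ∀ σ ∈ Ae.inertiaSubgroupIn ℚ, coc p e g hg σ ∈ G0
  deep : ∀ (g : (FF p)ˣ) (hg : IsDD p e g), (∀ σ, coc p e g hg σ ∈ Eis p e) →
    ∀ σ ∈ S15.D.deepInertia e Ae, coc p e g hg σ = 0
  iso : ∀ a ∈ G0 ⊓ Eis p e, ∀ b ∈ G0 ⊓ Eis p e, β a b = 0

/-- **consumed from Part P** (the prime `p`). -/
structure IsLocP (Ap : ValuationSubring Qb) (β : Kum p e →+ Kum p e →+ Additive Qbˣ)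
    (TT : AddSubgroup (Kum p e)) : Prop where
  inertia : ∀ (g : (FF p)ˣ) (hg : IsDD p e g), (∀ σ, coc p e g hg σ ∈ Eis p e) →
    ∀ σ ∈ Ap.inertiaSubgroupIn ℚ, coc p e g hg σ ∈ TT
  iso : ∀ a ∈ TT ⊓ Eis p e, ∀ b ∈ TT ⊓ Eis p e, β a b = 0

end

end Fermat.Agent.S15.F
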