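import Fermat.Agent.S15.F.Defs
import Fermat.Agent.S32.KJ
import Fermat.Agent.S37.DivA

/-!
# S15 / F / GalHecke : (J1) `T_ℓ` commutes with Galois on `J₀(N)`, (J2) `κ = S32.KJ_hom` is Hecke equivariant.      (helper93)

TASKS  S15/F-J-Trick (section Trick, EASY, ~60 lines), S15/F-J-Corr (section Corr, MEDIUM, ~120 lines),
       S15/F-J-KJ (section KJ, MEDIUM, ~120 lines).

THE DIVISIBILITY TRICK (no geometry of places needed).  An additive map `Δ : Div → Div` which kills all principal divisors kills all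
divisors of degree `0`: by `S37.exists_eq_nsmul_add_div`, `E = r E' + div g` for every `r > 0`, so `Δ E = r Δ E'` is divisible by every `r`.
Apply it to `Δ = T σ - σ T`; on principal divisors `T (div g) = div (heckeF g)` (`S37.correspondence_apply_of_ord`),
`σ (div g) = div (galF σ g)` (`S37.galois_smul_apply_of_ord`), and `heckeF`, `galF` commute (`ES.galU_heckeU`).
-/

set_option autoImplicit false

open AlgebraicCurve ModularCurve

namespace Fermat.Agent.S15.F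

open Fermat.Agent.ES

noncomputable section

variable {N : ℕ} [NeZero N]

/-- `σ` as a semilinear automorphism of `FF N`. -/
abbrev Gam (N : ℕ) (σ : GQ) : SemilinearAut Qb (FF N) := arithmeticGalois (modularFunctionFieldFull N) σ

/-- the Hecke correspondence on divisors. -/
abbrev Tdiv (N ℓ : ℕ) [NeZero N] [NeZero ℓ] [HasPrincipalDivisors Qb (FF (N * ℓ))] :
    Divisor Qb (FF N) →+ Divisor Qb (FF N) :=
  Divisor.correspondence (heckeBetaBar Qb N ℓ) (heckeAlphaBar Qb N ℓ) (heckeBetaBarIntegral N ℓ)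
    (heckeAlphaBarIntegral N ℓ)

/-- the `FF1` structure of `FF N`. -/
theorem ff1 (N : ℕ) [NeZero N] : S26.FF1 Qb (FF N) := S17.G.ff1_of_isFF _ (S17.FL Qb N)

/-- `κ : Kum N m → J₀(N)`, `[f] ↦ [(1/m) div f]`. -/
def kap (N m : ℕ) [NeZero N] (hm : 0 < m) : Kum N m →+ JZero N :=
  haveI := ff1 N
  S32.KJ_hom N m hm

/-! ### TASK S15/F-J-Trick -/
section Trick

omit [NeZero N] in
/-- evaluate at a place `P`: `Z P` is divisible by `r = |Z P| + 1`. -/
theorem GH_div_eq_zero {Z : Divisor Qb (FF N)}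
    (h : ∀ r : ℕ, 0 < r → ∃ Z' : Divisor Qb (FF N), Z = r • Z') : Z = 0 := by
  ext P
  rw [Finsupp.zero_apply]
  obtain ⟨Z', hZ'⟩ := h ((Z P).natAbs + 1) (Nat.succ_pos _)
  have h1 : Z P = (((Z P).natAbs + 1 : ℕ) : ℤ) * Z' P := by
    conv_lhs => rw [hZ']
    rw [Finsupp.smul_apply, nsmul_eq_mul]
  have h2 : (((Z P).natAbs + 1 : ℕ) : ℤ) ∣ Z P := ⟨_, h1⟩
  apply Int.eq_zero_of_abs_lt_dvd h2
  push_cast
  exact lt_add_one _

/-- **the divisibility trick.**  `S37.exists_eq_nsmul_add_div r hr E` gives `E', g`; `D := E - r • E'` satisfies `D P = P.ord g`; so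
`Δ E = r • Δ E' + Δ D = r • Δ E'`; `GH_div_eq_zero`. -/
theorem GH_trick (Δ : Divisor Qb (FF N) →+ Divisor Qb (FF N))
    (h : ∀ (D : Divisor Qb (FF N)) (g : FF N), g ≠ 0 → (∀ P : Place Qb (FF N), D P = P.ord g) →
      Δ D = 0)
    (E : Divisor.degZero (K := Qb) (F := FF N)) : Δ (E : Divisor Qb (FF N)) = 0 := by
  apply GH_div_eq_zero
  intro r hr
  obtain ⟨E', g, hg, hE⟩ := S37.exists_eq_nsmul_add_div r hr E
  refine ⟨Δ (E' : Divisor Qb (FF N)), ?_⟩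
  have h1 : Δ ((E : Divisor Qb (FF N)) - r • (E' : Divisor Qb (FF N))) = 0 := by
    refine h _ g hg fun P => ?_
    rw [Finsupp.sub_apply, Finsupp.smul_apply, nsmul_eq_mul, hE P]
    ring
  rw [map_sub, map_nsmul, sub_eq_zero] at h1
  exact h1

end Trick

/-! ### TASK S15/F-J-Corr -/
section Corr

variable (ℓ : ℕ) [NeZero ℓ] (hℓ : ℓ.Prime) (hℓN : ¬ ℓ ∣ N)

include hℓ hℓN in
/-- `GH_trick` for `Δ := Tdiv ∘ (σ • ·) - (σ • ·) ∘ Tdiv` (`DistribSMul.toAddMonoidHom _ (Gam N σ)`, `AddMonoidHom.comp`, `sub`).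
For `D P = P.ord g`:  `(Tdiv (σ • D)) P = P.ord (heckeF (galF σ g))` (`S37.correspondence_apply_of_ord` applied to
`S37.galois_smul_apply_of_ord`), `(σ • Tdiv D) P = P.ord (galF σ (heckeF g))` (the other way round); the two functions agree
(`ES.galU_heckeU`, or `Subtype.ext (coeffMap_gal_heckeSer σ ℓ _)`).  `Finsupp.ext`. -/
theorem corr_gal [HasPrincipalDivisors Qb (FF (N * ℓ))] (σ : GQ)
    (E : Divisor.degZero (K := Qb) (F := FF N)) :
    Tdiv N ℓ (Gam N σ • (E : Divisor Qb (FF N))) = Gam N σ • Tdiv N ℓ (E : Divisor Qb (FF N)) := by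
  let S : Divisor Qb (FF N) →+ Divisor Qb (FF N) := DistribSMul.toAddMonoidHom _ (Gam N σ)
  have key := GH_trick ((Tdiv N ℓ).comp S - S.comp (Tdiv N ℓ)) (by
    intro D g hg hD
    rw [AddMonoidHom.sub_apply, sub_eq_zero]
    change Tdiv N ℓ (Gam N σ • D) = Gam N σ • Tdiv N ℓ D
    ext P
    have hg' : galF N σ g ≠ 0 := (map_ne_zero_iff _ (galF N σ).injective).mpr hg
    rw [S37.correspondence_apply_of_ord ℓ hℓ hℓN hg' (S37.galois_smul_apply_of_ord σ hD) P,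
      S37.galois_smul_apply_of_ord σ (S37.correspondence_apply_of_ord ℓ hℓ hℓN hg hD) P]
    congr 1
    exact (Subtype.ext (coeffMap_gal_heckeSer σ ℓ _)).symm) E
  rw [AddMonoidHom.sub_apply, sub_eq_zero] at key
  exact key

include hℓN in
/-- **(J1)**.  `z = Pic0.mk E` (`Pic0.mk_surjective`); `heckeOperatorBar_apply`, `S37.heckeOperatorAlong_mk`
(instance `S37.hasPrincipalDivisors_FF (N * ℓ)`), `S37.DivA_gal_smul_mk`; `congrArg Pic0.mk (Subtype.ext _)`,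
`Pic0.coe_degZeroCorrespondence`, `SemilinearAut.coe_degZeroSMulHom`, `corr_gal`. -/
theorem TJ_gal (σ : GQ) (z : JZero N) :
    heckeOperatorBar N ⟨ℓ, hℓ⟩ (σ • z) = σ • heckeOperatorBar N ⟨ℓ, hℓ⟩ z := by
  have : NeZero (N * ℓ) := ⟨Nat.mul_ne_zero (NeZero.ne N) (NeZero.ne ℓ)⟩
  have := S37.hasPrincipalDivisors_FF (N * ℓ)
  obtain ⟨E, rfl⟩ := Pic0.mk_surjective z
  have h1 : heckeOperatorBar N ⟨ℓ, hℓ⟩ (Pic0.mk E) = _ := S37.heckeOperatorAlong_mk N ℓ E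
  have h2 : heckeOperatorBar N ⟨ℓ, hℓ⟩ (Pic0.mk (SemilinearAut.degZeroSMulHom (Gam N σ) E)) = _ :=
    S37.heckeOperatorAlong_mk N ℓ (SemilinearAut.degZeroSMulHom (Gam N σ) E)
  rw [S37.DivA_gal_smul_mk, h1, h2, S37.DivA_gal_smul_mk]
  refine congrArg Pic0.mk (Subtype.ext ?_)
  exact corr_gal ℓ hℓ hℓN σ E

end Corr

/-! ### TASK S15/F-J-KJ -/
section KJ

variable (ℓ : ℕ) [NeZero ℓ] (hℓ : ℓ.Prime) (hℓN : ¬ ℓ ∣ N)

/-- **(J2)**.  `x = Kum.mk f`; `heckeKum_mk`, `S32.KJ_hom_mk` twice, `heckeOperatorBar_apply`, `S37.heckeOperatorAlong_mk`.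
It remains to show `KJ_D m (heckeF f) = Tdiv (KJ_D m f)` as divisors.  Multiply by `m` (divisors are torsion free: `Finsupp.ext`,
`mul_left_cancel₀`): `m • Tdiv (KJ_D m f) = Tdiv (m • KJ_D m f) = Tdiv (divisorOf f)` (`S32.KJ_smul_D`), which is
`P ↦ P.ord (heckeF f)` by `S37.correspondence_apply_of_ord` (`divisorOf_apply`), `= m • KJ_D m (heckeF f)` (`S32.KJ_smul_D`,
`heckeU_mem_Dm`). -/
theorem KJ_hecke (m : ℕ) (hm : 0 < m) (x : Kum N m) :
    kap N m hm (heckeKum N ℓ hℓ hℓN m x) = heckeOperatorBar N ⟨ℓ, hℓ⟩ (kap N m hm x) := by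
  have hff := ff1 N
  have hpd := S37.hasPrincipalDivisors_FF (N * ℓ)
  obtain ⟨f, rfl⟩ := Kum.mk_surjective x
  rw [heckeKum_mk]
  change S32.KJ_hom N m hm (Kum.mk _) = heckeOperatorBar N ⟨ℓ, hℓ⟩ (S32.KJ_hom N m hm (Kum.mk f))
  rw [S32.KJ_hom_mk, S32.KJ_hom_mk]
  refine Eq.trans ?_ (S37.heckeOperatorAlong_mk N ℓ _).symm
  refine congrArg Pic0.mk (Subtype.ext ?_)
  change S32.KJ_D Qb m (((heckeU N ℓ hℓ hℓN (f : (FF N)ˣ) : (FF N)ˣ)) : FF N) =
    Tdiv N ℓ (S32.KJ_D Qb m ((f : (FF N)ˣ) : FF N))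
  have hm0 : (m : ℤ) ≠ 0 := by exact_mod_cast hm.ne'
  ext P
  apply mul_left_cancel₀ hm0
  have h1 : (m : ℤ) * S32.KJ_D Qb m (((heckeU N ℓ hℓ hℓN (f : (FF N)ˣ) : (FF N)ˣ)) : FF N) P =
      P.ord (heckeF N ℓ hℓ hℓN ((f : (FF N)ˣ) : FF N)) := by
    rw [S32.KJ_D_apply, Int.mul_ediv_cancel' (heckeU_mem_Dm N ℓ hℓ hℓN f.2 P), coe_heckeU]
  have h2 : (m : ℤ) * Tdiv N ℓ (S32.KJ_D Qb m ((f : (FF N)ˣ) : FF N)) P =
      P.ord (heckeF N ℓ hℓ hℓN ((f : (FF N)ˣ) : FF N)) := by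
    rw [← smul_eq_mul, ← Finsupp.smul_apply, ← map_zsmul, S32.KJ_smul_D m _ f.2]
    exact S37.correspondence_apply_of_ord ℓ hℓ hℓN (f : (FF N)ˣ).ne_zero
      (fun Q => S26.divisorOf_apply _ Q) P
  exact h1.trans h2.symm

end KJ

/-! ### the same in the language of `F/Defs.lean` (part of TASK S15/F-J-KJ) -/
section Words

variable (p e : ℕ) [NeZero p]

/-- `TJ_gal`. -/
theorem TJ_smul (r : Idx p e) (σ : GQ) (z : JZero p) : TJ p e r (σ • z) = σ • TJ p e r z := by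
  have : NeZero r.1 := ⟨r.2.1.ne_zero⟩
  exact TJ_gal r.1 r.2.1 (toGood p e r).2.2 σ z

/-- `KJ_hecke` (`heckeT_apply`). -/
theorem kap_TK (he : 0 < e) (r : Idx p e) (x : Kum p e) :
    kap p e he (TK p e r x) = TJ p e r (kap p e he x) := by
  have : NeZero r.1 := ⟨r.2.1.ne_zero⟩
  exact KJ_hecke r.1 r.2.1 (toGood p e r).2.2 e he x

/-- `S32.KJ_hom_gal`. -/
theorem kap_smul (he : 0 < e) (σ : GQ) (x : Kum p e) : kap p e he (σ • x) = σ • kap p e he x := by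
  have hff := ff1 p
  exact S32.KJ_hom_gal p e he σ x

/-- `S32.KJ_hom_injective`. -/
theorem kap_injective (he : 0 < e) : Function.Injective (kap p e he) := by
  have hff := ff1 p
  exact S32.KJ_hom_injective p e he

/-- `S32.KJ_hom_surj`, `S32.KJ_hom_torsion`. -/
theorem mem_range_kap_iff (he : 0 < e) (y : JZero p) : (∃ x, kap p e he x = y) ↔ e • y = 0 := by
  have hff := ff1 p
  constructor
  · rintro ⟨x, rfl⟩
    have h := S32.KJ_hom_torsion p e he x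
    rw [natCast_zsmul] at h
    exact h
  · intro h
    exact S32.KJ_hom_surj p e he y (by rw [natCast_zsmul]; exact h)

end Words

end

end Fermat.Agent.S15.F
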