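import Fermat.Agent.S15.F.GalHecke
import Fermat.Agent.S17.Curve.Basic

/-!
# S15 / F / H90 : (J3) every Galois invariant class of `J₀(N)` contains a Galois invariant divisor.      (helper93)

TASKS  S15/F-J-Lc (section Lc, EASY, ~120 lines), S15/F-J-Poinc (section Poinc, MEDIUM, ~120 lines),
       S15/F-J-Smooth (section Smooth, MEDIUM, ~120 lines), S15/F-J-Coc (section Coc, MEDIUM, ~150 lines).

PROOF.  `z = [D0]`.  `σ D0 - D0 = div u_σ` with `u_σ` NORMALISED: leading `q`-coefficient `1` (unique: `eq_of_ord_eq`).  So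
`u_{στ} = u_σ σ(u_τ)` (`lc` is multiplicative and `lc (σ u) = σ (lc u)`).  `D0` is fixed by an open subgroup `Gal(ℚ̄/L)`, so `u_σ` only depends on
`σ|L`, and `S := range u` is FINITE.  `w := ∑_{x ∈ S} x`.  For `t ∈ G_ℚ` the map `x ↦ u_t t(x)` permutes `S`, so `u_t t(w) = w`.  `w ≠ 0`: all `x ∈ S`
have leading coefficient `1`; the coefficient of `w` at the minimal `q`-order is the NUMBER of `x ∈ S` of minimal order (characteristic `0`).
`D := D0 + div w` is invariant: `t D = D0 + div u_t + div (t w) = D0 + div w`.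
-/

set_option autoImplicit false

open AlgebraicCurve ModularCurve

namespace Fermat.Agent.S15.F

open Fermat.Agent.ES

noncomputable section

variable {N : ℕ} [NeZero N]

/-- leading coefficient of the `q`-expansion. -/
def lc (f : FF N) : Qb := (f : LaurentSeries Qb).leadingCoeff

/-! ### TASK S15/F-J-Lc -/
section Lc

omit [NeZero N] in
theorem lc_ne_zero {f : FF N} (hf : f ≠ 0) : lc f ≠ 0 := by
  rw [lc, HahnSeries.leadingCoeff_ne_zero]
  exact fun h => hf (Subtype.ext h)

omit [NeZero N] in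
theorem ne_zero_of_lc {f : FF N} (hf : lc f = 1) : f ≠ 0 := by
  rintro rfl
  have h0 : lc (0 : FF N) = 0 := HahnSeries.leadingCoeff_zero
  rw [h0] at hf
  exact zero_ne_one hf

omit [NeZero N] in
/-- `HahnSeries.leadingCoeff_mul` (a domain). -/
theorem lc_mul (f g : FF N) : lc (f * g) = lc f * lc g := by
  exact HahnSeries.leadingCoeff_mul _ _

omit [NeZero N] in
theorem lc_one : lc (1 : FF N) = 1 := by
  exact HahnSeries.leadingCoeff_one

omit [NeZero N] in
/-- the coercion of `algebraMap Qb (FF N) c` is `HahnSeries.C c` (`S44.Cover.coe_algebraMap_FF` is such a lemma; do NOT import it, reprove: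
`rfl` or `IntermediateField.algebraMap_apply` + `HahnSeries.algebraMap_apply`), `HahnSeries.leadingCoeff_of_single`. -/
theorem lc_algebraMap (c : Qb) : lc (algebraMap Qb (FF N) c) = c := by
  have h : ((algebraMap Qb (FF N) c : FF N) : LaurentSeries Qb) = HahnSeries.single 0 c := by
    change algebraMap Qb (LaurentSeries Qb) c = _
    rw [algebraMap_laurentSeries_eq_single]
  rw [lc, h, HahnSeries.leadingCoeff_of_single]

/-- the order of `coeffMap` of an injective ring hom. -/
theorem FJLc_order_coeffMap {R S : Type*} [CommRing R] [CommRing S] (f : R →+* S)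
    (hf : Function.Injective f) (x : LaurentSeries R) : (coeffMap f x).order = x.order := by
  by_cases hx : x = 0
  · rw [hx, map_zero, HahnSeries.order_zero, HahnSeries.order_zero]
  have hx' : coeffMap f x ≠ 0 := by
    intro h
    apply hx
    apply HahnSeries.coeff_order_eq_zero.mp
    have h1 := congrArg (fun s => s.coeff x.order) h
    simp only [coeffMap_coeff, HahnSeries.coeff_zero] at h1
    exact hf (by rw [h1, map_zero])
  apply le_antisymm
  · apply HahnSeries.order_le_of_coeff_ne_zero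
    rw [coeffMap_coeff]
    intro h
    exact hx (HahnSeries.coeff_order_eq_zero.mp (hf (by rw [h, map_zero])))
  · apply HahnSeries.order_le_of_coeff_ne_zero
    intro h
    apply hx'
    apply HahnSeries.coeff_order_eq_zero.mp
    rw [coeffMap_coeff, h, map_zero]

omit [NeZero N] in
/-- `coe_galF`: coefficientwise action; the order does not change (`σ` injective).  Model: `S44.Cover.leadingCoeff_gact`. -/
theorem lc_galF (σ : GQ) (f : FF N) : lc (galF N σ f) = σ (lc f) := by
  rw [lc, lc, coe_galF, HahnSeries.leadingCoeff_eq, HahnSeries.leadingCoeff_eq,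
    FJLc_order_coeffMap _ (σ : Qb →+* Qb).injective, coeffMap_coeff]
  rfl

omit [NeZero N] in
/-- `c := (lc g)⁻¹`. -/
theorem exists_normalised {g : FF N} (hg : g ≠ 0) :
    ∃ u : FF N, lc u = 1 ∧ ∀ P : Place Qb (FF N), P.ord u = P.ord g := by
  have h0 := lc_ne_zero hg
  refine ⟨algebraMap Qb (FF N) (lc g)⁻¹ * g, ?_, fun P => ?_⟩
  · rw [lc_mul, lc_algebraMap, inv_mul_cancel₀ h0]
  · rw [P.ord_mul ((map_ne_zero _).2 (inv_ne_zero h0)) hg, S24.FF.ord_algebraMap, zero_add]

/-- `u / u'` has all orders `0`, so it is a constant `c` (`S32.KJ_const`, instance `ff1 N`); `lc u = c * lc u'`, so `c = 1`. -/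
theorem eq_of_ord_eq {u u' : FF N} (hu : lc u = 1) (hu' : lc u' = 1)
    (h : ∀ P : Place Qb (FF N), P.ord u = P.ord u') : u = u' := by
  have hu0 := ne_zero_of_lc hu
  have hu0' := ne_zero_of_lc hu'
  have := ff1 N
  obtain ⟨c, hc⟩ := S32.KJ_const (K := Qb) (u := u / u') (fun P => by
    rw [div_eq_mul_inv, P.ord_mul hu0 (inv_ne_zero hu0'), P.ord_inv, h P, add_neg_cancel])
  have h1 : u = algebraMap Qb (FF N) c * u' := by
    rw [hc, div_mul_cancel₀ _ hu0']
  have h2 : c = 1 := by
    have h3 := congrArg lc h1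
    rw [lc_mul, lc_algebraMap, hu, hu', mul_one] at h3
    exact h3.symm
  rw [h1, h2, map_one, one_mul]

end Lc

/-! ### TASK S15/F-J-Poinc -/
section Poinc

omit [NeZero N] in
/-- a finite nonempty sum of series with leading coefficient `1` is nonzero.  Let `m₀` be the minimal order (`Finset.exists_min_image`);
`x.coeff m₀ = 1` if `x.order = m₀` (`HahnSeries.leadingCoeff_eq`), `= 0` otherwise (`HahnSeries.coeff_eq_zero_of_lt_order`); so the coefficient of the sum is
`(#{x | order = m₀} : Qb) ≠ 0`.   Model: second half of `S44.Cover.orbit_sum`. -/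
theorem sum_ne_zero_of_lc (S : Finset (FF N)) (hS : S.Nonempty) (h : ∀ x ∈ S, lc x = 1) :
    ∑ x ∈ S, x ≠ 0 := by
  intro h0
  obtain ⟨x₀, hx₀, hmin⟩ := Finset.exists_min_image S
    (fun x : FF N => (x : LaurentSeries Qb).order) hS
  have hc : ∀ x ∈ S, (x : LaurentSeries Qb).coeff (x₀ : LaurentSeries Qb).order
      = if (x : LaurentSeries Qb).order = (x₀ : LaurentSeries Qb).order then 1 else 0 := by
    intro x hx
    split_ifs with hxo
    · rw [← hxo, ← HahnSeries.leadingCoeff_eq]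
      exact h x hx
    · exact HahnSeries.coeff_eq_zero_of_lt_order (lt_of_le_of_ne (hmin x hx) (Ne.symm hxo))
  have h1 : ((∑ x ∈ S, x : FF N) : LaurentSeries Qb).coeff (x₀ : LaurentSeries Qb).order = 0 := by
    rw [h0]
    rfl
  have h2 : ((∑ x ∈ S, x : FF N) : LaurentSeries Qb) = ∑ x ∈ S, (x : LaurentSeries Qb) :=
    map_sum (modularFunctionFieldBar N).val _ _
  rw [h2, HahnSeries.coeff_sum, Finset.sum_congr rfl hc, Finset.sum_ite, Finset.sum_const_zero,
    add_zero, Finset.sum_const, nsmul_eq_mul, mul_one] at h1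
  have h3 : (S.filter fun x : FF N =>
      (x : LaurentSeries Qb).order = (x₀ : LaurentSeries Qb).order).card = 0 := by
    exact_mod_cast h1
  rw [Finset.card_eq_zero] at h3
  have h4 : x₀ ∈ S.filter fun x : FF N =>
      (x : LaurentSeries Qb).order = (x₀ : LaurentSeries Qb).order :=
    Finset.mem_filter.2 ⟨hx₀, rfl⟩
  rw [h3] at h4
  exact absurd h4 (Finset.notMem_empty _)

omit [NeZero N] in
/-- **Poincaré series.**  `S := hfin.toFinset`, `w := ∑ x ∈ S, x`; `u t * galF t w = ∑ x ∈ S, u t * galF t x` and `x ↦ u t * galF t x` is a bijection of `S`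
(`Finset.sum_bij`: maps `u s` to `u (t * s)`; injective; `u s = u t * galF t (u (t⁻¹ * s))`).  `sum_ne_zero_of_lc`. -/
theorem poincare (u : GQ → FF N) (hlc : ∀ σ, lc (u σ) = 1)
    (hcoc : ∀ σ τ, u (σ * τ) = u σ * galF N σ (u τ)) (hfin : (Set.range u).Finite) :
    ∃ w : FF N, w ≠ 0 ∧ ∀ t : GQ, u t * galF N t w = w := by
  have hu0 : ∀ t, u t ≠ 0 := by
    intro t ht
    have := hlc t
    rw [ht, lc, ZeroMemClass.coe_zero, HahnSeries.leadingCoeff_zero] at this
    exact zero_ne_one (α := Qb) this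
  refine ⟨∑ x ∈ hfin.toFinset, x, sum_ne_zero_of_lc _ ⟨u 1, ?_⟩ ?_, fun t => ?_⟩
  · rw [Set.Finite.mem_toFinset]
    exact ⟨1, rfl⟩
  · intro x hx
    rw [Set.Finite.mem_toFinset] at hx
    obtain ⟨s, rfl⟩ := hx
    exact hlc s
  · rw [map_sum, Finset.mul_sum]
    refine Finset.sum_bij (fun x _ => u t * galF N t x) ?_ ?_ ?_ ?_
    · intro x hx
      rw [Set.Finite.mem_toFinset] at hx ⊢
      obtain ⟨s, rfl⟩ := hx
      exact ⟨t * s, hcoc t s⟩
    · intro x _ y _ hxy
      exact (galF N t).injective (mul_left_cancel₀ (hu0 t) hxy)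
    · intro y hy
      rw [Set.Finite.mem_toFinset] at hy
      obtain ⟨s, rfl⟩ := hy
      refine ⟨u (t⁻¹ * s), ?_, ?_⟩
      · rw [Set.Finite.mem_toFinset]
        exact ⟨t⁻¹ * s, rfl⟩
      · rw [← hcoc, mul_inv_cancel_left]
    · intro x _
      rfl

end Poinc

/-! ### TASK S15/F-J-Smooth -/
section Smooth

/-- every divisor is fixed by an open subgroup: `S17.exists_fixingSubgroup_place P` for `P ∈ D.support` (`S17.Pl N`, `S17.gal`, `S17.Kb` are abbreviations of
`Place Qb (FF N)`, `Gam N σ`, `Qb`); `L := ⨆ P ∈ D.support, L_P` (`IntermediateField.finiteDimensional_iSup_of_finset`);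
`σ • D = D`: `Finsupp.induction_linear` / `D = ∑ single`, `SemilinearAut.smul_single`; or `SemilinearAut.divisor_smul_apply` + `σ⁻¹` fixes the places of the support. -/
theorem exists_level_divisor (D : Divisor Qb (FF N)) :
    ∃ L : IntermediateField ℚ Qb, FiniteDimensional ℚ L ∧
      ∀ σ : GQ, (∀ y ∈ L, σ y = y) → Gam N σ • D = D := by
  classical
  choose L hL1 hL2 using fun P : Place Qb (FF N) => S17.exists_fixingSubgroup_place (N := N) P
  refine ⟨⨆ P ∈ D.support, L P,
    IntermediateField.finiteDimensional_iSup_of_finset' (fun P _ => hL1 P), ?_⟩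
  intro σ hσ
  have hfix : ∀ P ∈ D.support, Gam N σ • P = P := by
    intro P hP
    apply hL2 P σ
    rw [IntermediateField.mem_fixingSubgroup_iff]
    intro y hy
    have hle : L P ≤ ⨆ P ∈ D.support, L P := le_iSup_of_le P (le_iSup (fun _ => L P) hP)
    exact hσ y (hle hy)
  conv_lhs => rw [← Finsupp.sum_single D]
  conv_rhs => rw [← Finsupp.sum_single D]
  rw [Finsupp.sum, Finset.smul_sum]
  refine Finset.sum_congr rfl fun P hP => ?_
  rw [SemilinearAut.smul_single, hfix P hP]

omit [NeZero N] in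
/-- a function on `G_ℚ` which is right invariant under `Gal(ℚ̄/L)` has finite range: it factors through `σ ↦ σ|L ∈ (L →ₐ[ℚ] Qb)`, a finite type.
Model: `S44.Cover.finite_orbit`. -/
theorem finite_range_of_level {X : Type*} (u : GQ → X) (L : IntermediateField ℚ Qb)
    [FiniteDimensional ℚ L] (h : ∀ σ τ : GQ, (∀ y ∈ L, τ y = y) → u (σ * τ) = u σ) :
    (Set.range u).Finite := by
  classical
  have hfin : Finite (L →ₐ[ℚ] Qb) := inferInstance
  -- `u σ` only depends on `σ|L`
  have key : ∀ σ σ' : GQ, (σ : Qb →ₐ[ℚ] Qb).comp L.val = (σ' : Qb →ₐ[ℚ] Qb).comp L.val →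
      u σ = u σ' := by
    intro σ σ' hσ
    have h1 : ∀ y ∈ L, (σ⁻¹ * σ') y = y := by
      intro y hy
      have h2 : σ y = σ' y := DFunLike.congr_fun hσ (⟨y, hy⟩ : L)
      rw [AlgEquiv.mul_apply, ← h2]
      exact σ.symm_apply_apply y
    have h3 := h σ (σ⁻¹ * σ') h1
    rw [mul_inv_cancel_left] at h3
    exact h3.symm
  let r : GQ → (L →ₐ[ℚ] Qb) := fun σ => (σ : Qb →ₐ[ℚ] Qb).comp L.val
  have hsub : Set.range u ⊆ Set.range (fun φ : L →ₐ[ℚ] Qb =>
      if hφ : ∃ σ : GQ, r σ = φ then u hφ.choose else u 1) := by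
    rintro x ⟨σ, rfl⟩
    refine ⟨r σ, ?_⟩
    have hφ : ∃ σ' : GQ, r σ' = r σ := ⟨σ, rfl⟩
    simp only [dif_pos hφ]
    exact key _ _ hφ.choose_spec
  exact (Set.finite_range _).subset hsub

end Smooth

/-! ### TASK S15/F-J-Coc -/
section Coc

/-- the normalised cocycle of a divisor with invariant class.
`u σ` from `exists_normalised`; cocycle relation by `eq_of_ord_eq` (`lc_mul`, `lc_galF`, `map_one`;
`P.ord (galF σ (u τ)) = (σ • (τ • D0 - D0)) P` by `S37.galois_smul_apply_of_ord`; `mul_smul`, `smul_sub`);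
finiteness by `exists_level_divisor`, `finite_range_of_level` (`u τ = 1` if `τ • D0 = D0`: `eq_of_ord_eq` with `lc_one`). -/
theorem exists_cocycle (D0 : Divisor Qb (FF N))
    (h : ∀ σ : GQ, ∃ g : FF N, g ≠ 0 ∧ ∀ P : Place Qb (FF N), (Gam N σ • D0 - D0) P = P.ord g) :
    ∃ u : GQ → FF N, (∀ σ, lc (u σ) = 1) ∧
      (∀ σ (P : Place Qb (FF N)), (Gam N σ • D0 - D0) P = P.ord (u σ)) ∧
      (∀ σ τ, u (σ * τ) = u σ * galF N σ (u τ)) ∧ (Set.range u).Finite := by
  have h' : ∀ σ : GQ, ∃ u : FF N, lc u = 1 ∧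
      ∀ P : Place Qb (FF N), (Gam N σ • D0 - D0) P = P.ord u := by
    intro σ
    obtain ⟨g, hg, hgP⟩ := h σ
    obtain ⟨u, hu, huP⟩ := exists_normalised hg
    exact ⟨u, hu, fun P => by rw [hgP, huP]⟩
  choose u hlc hord using h'
  have hcoc : ∀ σ τ, u (σ * τ) = u σ * galF N σ (u τ) := by
    intro σ τ
    refine eq_of_ord_eq (hlc _) (by rw [lc_mul, lc_galF, hlc, hlc, map_one, one_mul]) fun P => ?_
    have hne1 : u σ ≠ 0 := ne_zero_of_lc (hlc σ)
    have hne2 : galF N σ (u τ) ≠ 0 :=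
      (map_ne_zero_iff _ (galF N σ).injective).mpr (ne_zero_of_lc (hlc τ))
    rw [P.ord_mul hne1 hne2, ← hord, ← hord, ← S37.galois_smul_apply_of_ord σ (hord τ) P]
    have e : Gam N (σ * τ) • D0 = Gam N σ • (Gam N τ • D0) := by
      rw [Gam, map_mul, mul_smul]
    rw [e, smul_sub]
    simp only [Finsupp.sub_apply]
    ring
  refine ⟨u, hlc, hord, hcoc, ?_⟩
  obtain ⟨L, hL, hLD⟩ := exists_level_divisor D0
  refine finite_range_of_level u L fun σ τ hτ => ?_
  have h1 : u τ = 1 := by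
    refine eq_of_ord_eq (hlc τ) lc_one fun P => ?_
    rw [← hord, hLD τ hτ, sub_self, Finsupp.zero_apply, Place.ord_one]
  rw [hcoc, h1, map_one, mul_one]

/-- divisor form of (J3): `exists_cocycle`, `poincare`; `D := D0 + divisorOf w` (instance `ff1 N`).
`(t • D) P = (t • D0) P + P.ord (galF t w)` and `P.ord (u t) + P.ord (galF t w) = P.ord w`. -/
theorem exists_invariant_divisor (D0 : Divisor Qb (FF N))
    (h : ∀ σ : GQ, ∃ g : FF N, g ≠ 0 ∧ ∀ P : Place Qb (FF N), (Gam N σ • D0 - D0) P = P.ord g) :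
    ∃ w : FF N, w ≠ 0 ∧ ∀ D : Divisor Qb (FF N), (∀ P, D P = D0 P + P.ord w) →
      ∀ σ : GQ, Gam N σ • D = D := by
  obtain ⟨u, hlc, hord, hcoc, hfin⟩ := exists_cocycle D0 h
  obtain ⟨w, hw, hwt⟩ := poincare u hlc hcoc hfin
  refine ⟨w, hw, fun D hD σ => ?_⟩
  have hDw : ∀ P : Place Qb (FF N), (D - D0) P = P.ord w := fun P => by
    rw [Finsupp.sub_apply, hD]; ring
  have e : D = D0 + (D - D0) := by abel
  refine Finsupp.ext fun P => ?_
  have h1 := S37.galois_smul_apply_of_ord σ hDw P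
  have h2 : Gam N σ • D = Gam N σ • D0 + Gam N σ • (D - D0) := by
    rw [← smul_add, ← e]
  have hne1 : u σ ≠ 0 := ne_zero_of_lc (hlc σ)
  have hne2 : galF N σ w ≠ 0 := (map_ne_zero_iff _ (galF N σ).injective).mpr hw
  have h3 : P.ord (u σ) + P.ord (galF N σ w) = P.ord w := by
    rw [← P.ord_mul hne1 hne2, hwt]
  have h4 := hord σ P
  rw [Finsupp.sub_apply] at h4
  rw [h2, Finsupp.add_apply, h1, hD]
  linarith

/-- **(J3) = H90.**  `z = Pic0.mk D0`; `σ • z = z` says that `σ • D0 - D0` is principal (`S37.DivA_gal_smul_mk`, `QuotientAddGroup.eq`,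
`AddSubgroup.mem_addSubgroupOf`, as in the proof of `S37.exists_eq_nsmul_add_div`); `exists_invariant_divisor`; `D := D0 + divisorOf w` has degree `0`
(`S26.degree_divisorOf`) and the same class. -/
theorem H90 (z : JZero N) (hz : ∀ σ : GQ, σ • z = z) :
    ∃ D : Divisor.degZero (K := Qb) (F := FF N), Pic0.mk D = z ∧
      ∀ σ : GQ, Gam N σ • (D : Divisor Qb (FF N)) = D := by
  have := ff1 N
  obtain ⟨D0, rfl⟩ := Pic0.mk_surjective z
  have h : ∀ σ : GQ, ∃ g : FF N, g ≠ 0 ∧
      ∀ P : Place Qb (FF N), (Gam N σ • (D0 : Divisor Qb (FF N)) - D0) P = P.ord g := by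
    intro σ
    have h1 := (hz σ).symm
    rw [S37.DivA_gal_smul_mk] at h1
    have h1' : (QuotientAddGroup.mk D0 : Pic0 Qb (FF N)) = QuotientAddGroup.mk
      (SemilinearAut.degZeroSMulHom (arithmeticGalois (modularFunctionFieldFull N) σ) D0) := h1
    rw [QuotientAddGroup.eq] at h1'
    obtain ⟨g, hg, hgE⟩ := (AddSubgroup.mem_addSubgroupOf.mp h1' :
      ((-D0 + SemilinearAut.degZeroSMulHom (arithmeticGalois (modularFunctionFieldFull N) σ) D0 :
        Divisor.degZero (K := Qb) (F := FF N)) : Divisor Qb (FF N))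
        ∈ Divisor.principal (K := Qb) (F := FF N))
    refine ⟨g, hg, fun P => ?_⟩
    rw [← hgE P]
    simp only [AddSubgroup.coe_add, AddSubgroup.coe_neg, Finsupp.add_apply, Finsupp.neg_apply,
      Finsupp.sub_apply, SemilinearAut.coe_degZeroSMulHom]
    ring
  obtain ⟨w, hw, hwD⟩ := exists_invariant_divisor (D0 : Divisor Qb (FF N)) h
  have hdeg : (D0 : Divisor Qb (FF N)) + S26.divisorOf (Ω := Qb) w ∈
      Divisor.degZero (K := Qb) (F := FF N) := by
    rw [Divisor.mem_degZero, map_add, S26.degree_divisorOf, add_zero]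
    exact Divisor.mem_degZero.1 D0.2
  refine ⟨⟨_, hdeg⟩, ?_, hwD _ fun P => by rw [Finsupp.add_apply, S26.divisorOf_apply]⟩
  refine (QuotientAddGroup.eq (s := (Divisor.principal (K := Qb) (F := FF N)).addSubgroupOf
    (Divisor.degZero (K := Qb) (F := FF N)))).2 ?_
  refine AddSubgroup.mem_addSubgroupOf.mpr ⟨w⁻¹, inv_ne_zero hw, fun P => ?_⟩
  simp only [AddSubgroup.coe_add, AddSubgroup.coe_neg, Finsupp.add_apply, Finsupp.neg_apply,
    S26.divisorOf_apply, Place.ord_inv]
  ring

end Coc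

end

end Fermat.Agent.S15.F
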