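import Fermat.Agent.S15.F.H90
import Fermat.Agent.ES.Glue.Iota

/-!
# S15 / F / Kummer : (J4) the Kummer cocycle of a point `y'` with `e y'` rational, (J5) small facts.      (helper93)

TASKS  S15/F-J-Kummer (section Kummer, MEDIUM, ~150 lines), S15/F-J-Small (section Small, EASY, ~60 lines).
-/

set_option autoImplicit false

open AlgebraicCurve ModularCurve

namespace Fermat.Agent.S15.F

open Fermat.Agent.ES

noncomputable section

variable (p e : ℕ) [NeZero p]

/-! ### TASK S15/F-J-Kummer -/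
section Kummer

/-- **(J4).**  `H90` for `z = e • y'`: `z = [D]`, `D` invariant.  `y' = [D']` (`Pic0.mk_surjective`); `e • D' - D = div g` (`QuotientAddGroup.eq` as in
`S37.exists_eq_nsmul_add_div`), `g ≠ 0`.  For `σ`: `P.ord (galF σ g / g) = (σ • (e D' - D)) P - (e D' - D) P = e * (σ • D' - D') P`
(`S37.galois_smul_apply_of_ord`, `S24.FF.ord_div`, invariance of `D`).  So `IsDD p e (Units.mk0 g _)`, and by `S32.KJ_hom_mk`
`kap (coc σ) = [KJ_D e (galF σ g / g)] = [σ • D' - D'] = σ • y' - y'` (`S32.KJ_D_apply`, `Int.mul_ediv_cancel_left`, `S37.DivA_gal_smul_mk`). -/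
theorem kummer (he : 0 < e) (y' : JZero p) (hy : ∀ σ : GQ, σ • (e • y') = e • y') :
    ∃ (g : (FF p)ˣ) (hg : IsDD p e g), ∀ σ : GQ, kap p e he (coc p e g hg σ) = σ • y' - y' := by
  obtain ⟨D, hD, hDinv⟩ := H90 (e • y') hy
  obtain ⟨D', rfl⟩ := Pic0.mk_surjective y'
  have he0 : (e : ℤ) ≠ 0 := by exact_mod_cast he.ne'
  have h1 : (QuotientAddGroup.mk D : Pic0 Qb (FF p)) = QuotientAddGroup.mk (e • D') := by
    rw [← S37.DivA_mk_nsmul] at hD
    exact hD
  rw [QuotientAddGroup.eq] at h1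
  obtain ⟨g, hg0, hgE⟩ := (AddSubgroup.mem_addSubgroupOf.mp h1 :
    ((-D + e • D' : Divisor.degZero (K := Qb) (F := FF p)) : Divisor Qb (FF p))
      ∈ Divisor.principal (K := Qb) (F := FF p))
  have hX : ∀ P : Place Qb (FF p),
      ((-D + e • D' : Divisor.degZero (K := Qb) (F := FF p)) : Divisor Qb (FF p)) P
        = -(D : Divisor Qb (FF p)) P + (e : ℤ) * (D' : Divisor Qb (FF p)) P := by
    intro P
    simp only [AddSubgroup.coe_add, AddSubgroup.coe_neg, AddSubgroup.coe_nsmul, Finsupp.add_apply,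
      Finsupp.neg_apply, Finsupp.smul_apply, nsmul_eq_mul]
  have key : ∀ (σ : GQ) (P : Place Qb (FF p)), P.ord (galF p σ g / g)
      = (e : ℤ) * ((Gam p σ • (D' : Divisor Qb (FF p))) P - (D' : Divisor Qb (FF p)) P) := by
    intro σ P
    have h2 := S37.galois_smul_apply_of_ord σ hgE P
    have h3 : (D : Divisor Qb (FF p)) ((Gam p σ)⁻¹ • P) = (D : Divisor Qb (FF p)) P := by
      rw [← SemilinearAut.divisor_smul_apply, hDinv σ]
    have hσg : galF p σ g ≠ 0 := (map_ne_zero_iff _ (galF p σ).injective).mpr hg0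
    rw [div_eq_mul_inv, P.ord_mul hσg (inv_ne_zero hg0), P.ord_inv, ← h2, ← hgE P,
      SemilinearAut.divisor_smul_apply, hX, hX, h3, SemilinearAut.divisor_smul_apply]
    ring
  have hcoe : ∀ σ : GQ, ((galU p σ (Units.mk0 g hg0) / Units.mk0 g hg0 : (FF p)ˣ) : FF p)
      = galF p σ g / g := by
    intro σ
    rw [Units.val_div_eq_div_val]
    rfl
  have hDD : IsDD p e (Units.mk0 g hg0) := by
    intro σ P
    rw [hcoe, key]
    exact dvd_mul_right _ _
  refine ⟨Units.mk0 g hg0, hDD, fun σ => ?_⟩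
  have hff := ff1 p
  have h4 : kap p e he (coc p e (Units.mk0 g hg0) hDD σ) =
      Pic0.mk ⟨S32.KJ_D Qb e ((galU p σ (Units.mk0 g hg0) / Units.mk0 g hg0 : (FF p)ˣ) : FF p),
        S32.KJ_degree_D e he _ (hDD σ)⟩ := rfl
  rw [h4, S37.DivA_gal_smul_mk, ← S37.DivA_mk_sub]
  refine congrArg Pic0.mk (Subtype.ext ?_)
  ext P
  change S32.KJ_D Qb e ((galU p σ (Units.mk0 g hg0) / Units.mk0 g hg0 : (FF p)ˣ) : FF p) P
    = (Gam p σ • (D' : Divisor Qb (FF p))) P - (D' : Divisor Qb (FF p)) P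
  rw [S32.KJ_D_apply, hcoe, key, Int.mul_ediv_cancel_left _ he0]

end Kummer

/-! ### TASK S15/F-J-Small -/
section Small

/-- `S17.G.pic0_divisible` as used in `S37.exists_eq_nsmul_add_div`. -/
theorem J_divisible (n : ℕ) (hn : 0 < n) (y : JZero p) : ∃ y' : JZero p, n • y' = y := by
  have : S26.FF1 (AlgebraicClosure ℚ) (modularFunctionFieldBar p) :=
    S17.G.ff1_of_isFF _ (S17.FL (AlgebraicClosure ℚ) p)
  have halg : Algebra.IsAlgebraic ℚ (AlgebraicClosure ℚ) :=
    (inferInstance : @Algebra.IsAlgebraic ℚ (AlgebraicClosure ℚ) _ _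
      (AlgebraicClosure.instAlgebra ℚ))
  exact S17.G.pic0_divisible (AlgebraicClosure ℚ) (modularFunctionFieldBar p)
    ((IsAlgClosed.lift : AlgebraicClosure ℚ →ₐ[ℚ] ℂ) : AlgebraicClosure ℚ →+* ℂ) n hn y

/-- `mem_range_kap_iff` + `ES.Glue.finite_Kum`. -/
theorem J_torsion_finite (he : 0 < e) : {x : JZero p | e • x = 0}.Finite := by
  have hfin : Finite (Kum p e) := Fermat.Agent.ES.Glue.finite_Kum he
  have h : {x : JZero p | e • x = 0} = Set.range (kap p e he) := by
    ext y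
    exact (mem_range_kap_iff p e he y).symm
  rw [h]
  exact Set.finite_range _

end Small

end

end Fermat.Agent.S15.F
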