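import Fermat.Agent.S15.F.Kap
import Fermat.Agent.S15.F.Kummer

/-!
# S15 / F / JSide : the facts about `J₀(p)` consumed by `F/Main.lean`

`TJ_smul`, `kap_TK` (`F/GalHecke.lean`), `kummer`, `J_divisible` (`F/Kummer.lean`): J-side of helper93.
-/

set_option autoImplicit false

open AlgebraicCurve ModularCurve

namespace Fermat.Agent.S15.F

open Fermat.Agent.ES

noncomputable section

variable (p e : ℕ) [NeZero p]

/-- (J3)+(J4) Kummer theory: `y'` with `e y'` rational; then `σ y' - y' = κ [σ g / g]` for a function `g`. -/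
theorem exists_kummer (he : 0 < e) (y' : JZero p) (hy : ∀ σ : GQ, σ • (e • y') = e • y') :
    ∃ (g : (FF p)ˣ) (hg : IsDD p e g), ∀ σ : GQ, kap p e he (coc p e g hg σ) = σ • y' - y' :=
  kummer p e he y' hy

/-- (J5) `J₀(p)` is divisible. -/
theorem jzero_divisible (he : 0 < e) (y : JZero p) : ∃ y' : JZero p, e • y' = y :=
  J_divisible p e he y

end

end Fermat.Agent.S15.F
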