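import Fermat.Agent.S15.F.GalHecke

/-!
# S15 / F / Kap : complements on `κ = kap : Kum p e → J₀(p)` (`kap`, `ff1`, `kap_injective`, `kap_TK` are in `F/GalHecke.lean`)
-/

set_option autoImplicit false

open AlgebraicCurve ModularCurve

namespace Fermat.Agent.S15.F

open Fermat.Agent.ES

noncomputable section

variable (p e : ℕ) [NeZero p]

theorem kap_torsion (he : 0 < e) (x : Kum p e) : e • kap p e he x = 0 := by
  rw [← map_nsmul, Kum.nsmul_eq_zero, map_zero]

theorem kap_surj (he : 0 < e) (y : JZero p) (hy : e • y = 0) : ∃ x, kap p e he x = y :=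
  haveI := ff1 p
  S32.KJ_hom_surj p e he y (by rw [natCast_zsmul]; exact hy)

theorem kap_gal (he : 0 < e) (σ : GQ) (x : Kum p e) :
    kap p e he (galKum p e σ x) = σ • kap p e he x :=
  haveI := ff1 p
  S32.KJ_hom_gal p e he σ x

end

end Fermat.Agent.S15.F
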