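import Fermat.Agent.S15.F.Word
import Fermat.Agent.S37.Cong

/-!
# S15 / F / SelInst : the Kummer cocycles `c_g` (`g` with `c_g` valued in `Eis`) are Selmer cocycles in the sense of Part D
-/

set_option autoImplicit false

open AlgebraicCurve ModularCurve

namespace Fermat.Agent.S15.F

open Fermat.Agent.ES

noncomputable section

variable (p e : ℕ) [NeZero p]

/-! ### TASK S15/F-Sel -/

/-- the cocycle relation (`galU_mul`, `galKum_mk`, `Kum.mk_mul`): `στ g / g = (σ g / g) σ(τ g / g)`. -/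
theorem coc_cocycle (g : (FF p)ˣ) (hg : IsDD p e g) (σ τ : GQ) :
    coc p e g hg (σ * τ) = coc p e g hg σ + galKum p e σ (coc p e g hg τ) := by
  rw [coc, coc, coc, galKum_mk, ← Kum.mk_mul]
  refine congrArg Kum.mk (Subtype.ext ?_)
  change galU p (σ * τ) g / g = (galU p σ g / g) * galU p σ (galU p τ g / g)
  rw [galU_mul, map_div, mul_comm, div_mul_div_cancel]

/-- continuity (`ES.exists_finite_level`). -/
theorem coc_cont (g : (FF p)ˣ) (hg : IsDD p e g) :
    ∃ L : IntermediateField ℚ Qb, FiniteDimensional ℚ L ∧ ∀ σ ∈ L.fixingSubgroup, coc p e g hg σ = 0 := by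
  obtain ⟨L, hL, h⟩ := exists_finite_level p (g : FF p)
  refine ⟨L, hL, fun σ hσ => ?_⟩
  have h1 : galU p σ g = g :=
    Units.ext (h σ (fun x hx => (IntermediateField.mem_fixingSubgroup_iff L σ).1 hσ x hx))
  have h2 : (⟨galU p σ g / g, hg σ⟩ : Dm p e) = 1 := Subtype.ext (by
    change galU p σ g / g = 1
    rw [h1, div_self'])
  rw [coc, h2, Kum.mk_one]

/-- unramified outside `p e`: `σ g` and `g` have the same reduction for `σ` in the inertia group, then CRUX.
(copy the proof of `ES.galKum_of_mem_inertia` (ES/B/Output.lean) with `ES.exists_integral_fraction`, or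
`import Fermat.Agent.S37.Cong`: `S37.isG_inertia` + `S37.IsG.exists_pow_eq`, `Kum.mk_eq_zero_iff`.) -/
theorem coc_unram (he : e ≠ 0) (g : (FF p)ˣ) (hg : IsDD p e g) {l : ℕ} (hcrux : Crux p l e)
    (A : ValuationSubring Qb) (hA : A.LiesOverPrime l) (σ : GQ) (hσ : σ ∈ A.inertiaSubgroupIn ℚ) :
    coc p e g hg σ = 0 := by
  rw [coc, Kum.mk_eq_zero_iff]
  have hG := S37.isG_inertia (N := p) hσ (g := (g : FF p)) g.ne_zero
  have hcoe : ((galU p σ g / g : (FF p)ˣ) : FF p) = galF p σ (g : FF p) / (g : FF p) := by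
    rw [Units.val_div_eq_div_val, coe_galU]
  obtain ⟨s, hs⟩ := S37.IsG.exists_pow_eq he hcrux hA hG (fun P => by
    rw [← hcoe]
    exact hg σ P)
  have hs0 : s ≠ 0 := by
    rintro rfl
    rw [zero_pow he] at hs
    exact hG.ne_zero hs.symm
  refine ⟨Units.mk0 s hs0, Units.ext ?_⟩
  rw [Units.val_pow_eq_pow_val, Units.val_mk0, hs]
  exact hcoe.symm

/-- **the Selmer instance.** -/
theorem coc_isSel (he : e.Prime) (hp : p.Prime)
    (hcrux : ∀ ℓ : ℕ, ℓ.Prime → ¬ ℓ ∣ p * e → Crux p ℓ e)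
    {Ae Ap : ValuationSubring Qb} {β : Kum p e →+ Kum p e →+ Additive Qbˣ}
    {G0 TT : AddSubgroup (Kum p e)} (hE : IsLocE p e Ae β G0) (hP : IsLocP p e Ap β TT)
    (g : (FF p)ˣ) (hg : IsDD p e g) (hG : ∀ σ, coc p e g hg σ ∈ Eis p e) :
    S15.D.IsSel e p Ae Ap (S15.D.smulAct (Kum p e)) (Eis p e) G0 TT (coc p e g hg) where
  vals := hG
  cocycle := coc_cocycle p e g hg
  cont := coc_cont p e g hg
  unram := fun l hl hle hlp A hA σ hσ => coc_unram p e he.ne_zero g hg
    (hcrux l hl (fun h => by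
      rcases (Nat.Prime.dvd_mul hl).mp h with h | h
      · exact hlp ((Nat.prime_dvd_prime_iff_eq hl hp).mp h)
      · exact hle ((Nat.prime_dvd_prime_iff_eq hl he).mp h))) A hA σ hσ
  at_e := hE.inertia g hg hG
  deep := hE.deep g hg hG
  at_N := hP.inertia g hg hG

end

end Fermat.Agent.S15.F
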