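import Fermat.Agent.S15.F.Count
import Fermat.Agent.S15.F.SelInst
import Fermat.Agent.S15.F.JSide
import Fermat.Agent.S15.F.Abs.Main
import Fermat.Agent.ES.Glue.Iota
import Fermat.Agent.Crux.Main
import Fermat.Agent.Lib.FrobDensity.ForES
import Fermat.Agent.S17

/-!
# S15 / F / Main : the export of Part F

There is a word `s` in the Hecke operators `T_r` (`r ∤ p e`) which acts as the identity on the Eisenstein part of `J₀(p)[e]` and which maps
`J₀(p)(ℚ)` into the torsion subgroup.
-/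

set_option autoImplicit false

open AlgebraicCurve ModularCurve

namespace Fermat.Agent.S15.F

open Fermat.Agent.ES

noncomputable section

variable (p e : ℕ) [NeZero p]

theorem actJ_gal (t : HW p e) (σ : GQ) (z : JZero p) : actJ p e t (σ • z) = σ • actJ p e t z :=
  (lift_intertwine (TJ p e) (TJ p e) (DistribSMul.toAddMonoidHom (JZero p) σ)
    (fun r a => (TJ_smul p e r σ a).symm) t z).symm

theorem kap_actK (he : 0 < e) (t : HW p e) (x : Kum p e) :
    kap p e he (actK p e t x) = actJ p e t (kap p e he x) :=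
  lift_intertwine (TK p e) (TJ p e) (kap p e he) (fun r a => kap_TK p e he r a) t x

theorem finite_torsion (he : 0 < e) [Finite (Kum p e)] : {x : JZero p | e • x = 0}.Finite :=
  (Set.finite_range (kap p e he)).subset (fun x hx => by
    obtain ⟨v, rfl⟩ := kap_surj p e he x hx
    exact ⟨v, rfl⟩)

/-- **Part F.** -/
theorem main (hp : p.Prime) (hp5 : 5 ≤ p) (he : e.Prime) (hep : e ≠ p)
    {Ae Ap : ValuationSubring Qb} (hAe : Ae.LiesOverPrime e) (hAp : Ap.LiesOverPrime p)
    {β : Kum p e →+ Kum p e →+ Additive Qbˣ} (hβ : IsPairing p e β)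
    {G0 TT : AddSubgroup (Kum p e)} (hE : IsLocE p e Ae β G0) (hP : IsLocP p e Ap β TT) :
    ∃ s : HW p e, (∀ x ∈ Eis p e, actK p e s x = x) ∧
      ∀ z : JZero p, (∀ σ : GQ, σ • z = z) → ∃ n : ℕ, 0 < n ∧ n • actJ p e s z = 0 := by
  have he0 : 0 < e := he.pos
  haveI : Finite (Kum p e) := ES.Glue.finite_Kum he0
  have hcrux : ∀ ℓ : ℕ, ℓ.Prime → ¬ ℓ ∣ p * e → Crux p ℓ e := fun ℓ hℓ h =>
    Crux.crux p ℓ e hℓ (fun h' => h (Dvd.dvd.mul_right h' e)) (fun h' => h (Dvd.dvd.mul_left h' p))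
  have hFD := FD.frobPowerDensity
  obtain ⟨t, ht1, ht2⟩ := exists_projector p e
  obtain ⟨hSelfin, hSelcard⟩ := card_sel_le_eis p e hp he hep hcrux hFD hAe hAp hβ hE hP
  let E : JZero p →+ JZero p := (actJ p e t).toAddMonoidHom
  have hEdef : ∀ x, E x = actJ p e t x := fun _ => rfl
  let S : Set (GQ → JZero p) := (fun c : GQ → Kum p e => fun σ => kap p e he0 (c σ)) ''
    (S15.D.Sel e p Ae Ap (S15.D.smulAct (Kum p e)) (Eis p e) G0 TT : Set (GQ → Kum p e))
  have hSelfin' : (S15.D.Sel e p Ae Ap (S15.D.smulAct (Kum p e)) (Eis p e) G0 TT :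
      Set (GQ → Kum p e)).Finite := Set.toFinite _
  have hSf : S.Finite := hSelfin'.image _
  have hS1 : S.ncard ≤ Nat.card ↥(Eis p e) := by
    refine (Set.ncard_image_le hSelfin').trans ?_
    rw [← Nat.card_coe_set_eq]
    exact hSelcard
  have hS2 : Nat.card ↥(Eis p e) ≤ {x : JZero p | e • x = 0 ∧ E x = x}.ncard := by
    have h1 : Nat.card ↥(Eis p e) = (kap p e he0 '' (Eis p e : Set (Kum p e))).ncard := by
      rw [Set.ncard_image_of_injective _ (kap_injective p e he0), ← Nat.card_coe_set_eq]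
      rfl
    rw [h1]
    refine Set.ncard_le_ncard ?_ ((finite_torsion p e he0).subset fun x hx => hx.1)
    rintro _ ⟨v, hv, rfl⟩
    refine ⟨kap_torsion p e he0 v, ?_⟩
    rw [hEdef, ← kap_actK, ht2 v hv]
  have hidem : ∀ x : JZero p, e • x = 0 → E (E x) = E x := by
    intro x hx
    obtain ⟨v, rfl⟩ := kap_surj p e he0 x hx
    rw [hEdef, hEdef, ← kap_actK, ← kap_actK, ht2 _ (ht1 v)]
  have hmem : ∀ y' : JZero p, (∀ σ : GQ, σ • (e • y') = e • y') →
      (fun σ : GQ => E (σ • y' - y')) ∈ S := by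
    intro y' hy
    obtain ⟨g, hg, hgκ⟩ := exists_kummer p e he0 y' hy
    refine ⟨coc p e (wU p e t g) (isDD_wU p e t hg), ?_, ?_⟩
    · exact S15.D.mem_Sel.mpr (coc_isSel p e he hp hcrux hE hP _ _
        (fun σ => by rw [coc_wU p e t hg]; exact ht1 _))
    · funext σ
      change kap p e he0 (coc p e (wU p e t g) (isDD_wU p e t hg) σ) = E (σ • y' - y')
      rw [coc_wU p e t hg, kap_actK, hgκ, hEdef]
  obtain ⟨P, hP1, hP2⟩ := Abs.main e he E (fun σ x => actJ_gal p e t σ x) (jzero_divisible p e he0)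
    (finite_torsion p e he0) (S17.result p hp hp5) hidem S hSf (hS1.trans hS2) hmem
  refine ⟨Polynomial.aeval t P, ?_, ?_⟩
  · intro x hx
    have h1 : actK p e (Polynomial.aeval t P) = Polynomial.aeval (actK p e t) P :=
      (Polynomial.aeval_algHom_apply (actK p e) t P).symm
    rw [h1, aeval_apply_of_fixed _ P (ht2 x hx)]
    obtain ⟨k, hk⟩ := hP1
    have h2 : P.eval 1 = 1 + k * (e : ℤ) := by linarith
    rw [h2, add_smul, one_smul, mul_smul, natCast_zsmul, Kum.nsmul_eq_zero, smul_zero, add_zero]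
  · intro z hz
    obtain ⟨n, hn, h⟩ := hP2 z hz
    refine ⟨n, hn, ?_⟩
    have h1 : actJ p e (Polynomial.aeval t P) = Polynomial.aeval (actJ p e t) P :=
      (Polynomial.aeval_algHom_apply (actJ p e) t P).symm
    have h2 : E.toIntLinearMap = actJ p e t := LinearMap.ext fun _ => rfl
    rw [h1, ← h2]
    exact h

end

end Fermat.Agent.S15.F
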