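import Fermat.Agent.S15.F.Defs

/-!
# S15 / F / Word : formal properties of the word actions

All proofs are `FreeAlgebra.induction` (or `lift_intertwine`) + the corresponding statement for a single `T_r`
(`ES.heckeKum_comm`, `ES.galKum_heckeKum`, `ES.galU_heckeU`, `ES.heckeKum_mk`, `ES.heckeU_mem_Dm`).
-/

set_option autoImplicit false

open AlgebraicCurve ModularCurve

namespace Fermat.Agent.S15.F

open Fermat.Agent.ES

noncomputable section

/-- **intertwining**: a homomorphism commuting with the generators commutes with all words. -/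
theorem lift_intertwine {X A B : Type*} [AddCommGroup A] [AddCommGroup B]
    (f : X → Module.End ℤ A) (g : X → Module.End ℤ B) (φ : A →+ B)
    (h : ∀ x a, φ (f x a) = g x (φ a)) (t : FreeAlgebra ℤ X) (a : A) :
    φ (FreeAlgebra.lift ℤ f t a) = FreeAlgebra.lift ℤ g t (φ a) := by
  induction t using FreeAlgebra.induction generalizing a with
  | grade0 r => simp [Algebra.algebraMap_eq_smul_one]
  | grade1 x => simpa using h x a
  | mul s t hs ht => simp [map_mul, Module.End.mul_apply, hs, ht]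
  | add s t hs ht => simp [map_add, hs, ht]

/-- a subgroup stable under the generators is stable under all words. -/
theorem lift_mem {X A : Type*} [AddCommGroup A] (f : X → Module.End ℤ A) (H : AddSubgroup A)
    (h : ∀ x, ∀ a ∈ H, f x a ∈ H) (t : FreeAlgebra ℤ X) {a : A} (ha : a ∈ H) :
    FreeAlgebra.lift ℤ f t a ∈ H := by
  induction t using FreeAlgebra.induction generalizing a with
  | grade0 r => simpa [Algebra.algebraMap_eq_smul_one] using H.zsmul_mem ha r
  | grade1 x => simpa using h x a ha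
  | mul s t hs ht => simpa [map_mul, Module.End.mul_apply] using hs (ht ha)
  | add s t hs ht => simpa [map_add] using H.add_mem (hs ha) (ht ha)

/-- if the generators commute pairwise, so do all words. -/
theorem lift_comm {X A : Type*} [AddCommGroup A] (f : X → Module.End ℤ A)
    (h : ∀ x y a, f x (f y a) = f y (f x a)) (s t : FreeAlgebra ℤ X) (a : A) :
    FreeAlgebra.lift ℤ f s (FreeAlgebra.lift ℤ f t a)
      = FreeAlgebra.lift ℤ f t (FreeAlgebra.lift ℤ f s a) := by
  have h1 : ∀ (x : X) (t : FreeAlgebra ℤ X) (a : A),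
      f x (FreeAlgebra.lift ℤ f t a) = FreeAlgebra.lift ℤ f t (f x a) := fun x t a =>
    lift_intertwine f f (f x).toAddMonoidHom (fun y a => h x y a) t a
  exact (lift_intertwine f f (FreeAlgebra.lift ℤ f t).toAddMonoidHom
    (fun x a => (h1 x t a).symm) s a).symm

variable (p e : ℕ) [NeZero p]

/-! ### TASK S15/F-Word -/

theorem TK_apply (r : Idx p e) (x : Kum p e) :
    TK p e r x = (haveI : NeZero r.1 := ⟨r.2.1.ne_zero⟩;
      heckeKum p r.1 r.2.1 (toGood p e r).2.2 e x) := rfl

theorem TK_comm (r r' : Idx p e) (x : Kum p e) :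
    TK p e r (TK p e r' x) = TK p e r' (TK p e r x) := by
  haveI : NeZero r.1 := ⟨r.2.1.ne_zero⟩
  haveI : NeZero r'.1 := ⟨r'.2.1.ne_zero⟩
  exact heckeKum_comm r.1 r'.1 r.2.1 (toGood p e r).2.2 r'.2.1 (toGood p e r').2.2 x

theorem TK_gal (r : Idx p e) (σ : GQ) (x : Kum p e) :
    galKum p e σ (TK p e r x) = TK p e r (galKum p e σ x) := by
  haveI : NeZero r.1 := ⟨r.2.1.ne_zero⟩
  exact galKum_heckeKum p r.1 r.2.1 (toGood p e r).2.2 σ x

theorem actK_comm (s t : HW p e) (x : Kum p e) :
    actK p e s (actK p e t x) = actK p e t (actK p e s x) :=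
  lift_comm _ (TK_comm p e) s t x

theorem actK_gal (t : HW p e) (σ : GQ) (x : Kum p e) :
    galKum p e σ (actK p e t x) = actK p e t (galKum p e σ x) :=
  lift_intertwine _ _ (galKum p e σ) (fun r a => TK_gal p e r σ a) t x

/-- the action of a word on a unit of the function field. -/
def wU (t : HW p e) (g : (FF p)ˣ) : (FF p)ˣ := (actU p e t (Additive.ofMul g)).toMul

theorem wU_mul (t : HW p e) (g h : (FF p)ˣ) : wU p e t (g * h) = wU p e t g * wU p e t h := by
  unfold wU
  rw [ofMul_mul, map_add, toMul_add]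

theorem wU_div (t : HW p e) (g h : (FF p)ˣ) : wU p e t (g / h) = wU p e t g / wU p e t h := by
  unfold wU
  rw [ofMul_div, map_sub, toMul_sub]

theorem wU_gal (t : HW p e) (σ : GQ) (g : (FF p)ˣ) :
    galU p σ (wU p e t g) = wU p e t (galU p σ g) := by
  have h := lift_intertwine (TU p e) (TU p e) (MonoidHom.toAdditive (galU p σ)) (fun r a => by
    have : NeZero r.1 := ⟨r.2.1.ne_zero⟩
    exact congrArg Additive.ofMul (galU_heckeU p r.1 r.2.1 (toGood p e r).2.2 σ a.toMul))
    t (Additive.ofMul g)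
  exact congrArg Additive.toMul h

theorem wU_mem_Dm (t : HW p e) {f : (FF p)ˣ} (hf : f ∈ Dm p e) : wU p e t f ∈ Dm p e := by
  exact lift_mem (TU p e) (Subgroup.toAddSubgroup (Dm p e)) (fun r a ha => by
    have : NeZero r.1 := ⟨r.2.1.ne_zero⟩
    exact heckeU_mem_Dm p r.1 r.2.1 (toGood p e r).2.2 ha) t (a := Additive.ofMul f) hf

theorem Word_wU_algebraMap (r : ℤ) (g : (FF p)ˣ) :
    wU p e (algebraMap ℤ (HW p e) r) g = g ^ r := by
  unfold wU
  rw [AlgHom.commutes, Algebra.algebraMap_eq_smul_one]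
  rfl

theorem Word_wU_ι (x : Idx p e) (g : (FF p)ˣ) :
    wU p e (FreeAlgebra.ι ℤ x) g = (haveI : NeZero x.1 := ⟨x.2.1.ne_zero⟩;
      heckeU p x.1 x.2.1 (toGood p e x).2.2 g) := by
  have h2 : actU p e (FreeAlgebra.ι ℤ x) = TU p e x := FreeAlgebra.lift_ι_apply _ _
  unfold wU
  rw [h2]
  rfl

theorem Word_wU_mul_word (s t : HW p e) (g : (FF p)ˣ) :
    wU p e (s * t) g = wU p e s (wU p e t g) := by
  unfold wU
  rw [map_mul]
  rfl

theorem Word_wU_add_word (s t : HW p e) (g : (FF p)ˣ) :
    wU p e (s + t) g = wU p e s g * wU p e t g := by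
  unfold wU
  rw [map_add]
  rfl

theorem actK_mk (t : HW p e) (f : Dm p e) :
    actK p e t (Kum.mk f) = Kum.mk ⟨wU p e t f, wU_mem_Dm p e t f.2⟩ := by
  induction t using FreeAlgebra.induction generalizing f with
  | grade0 r =>
    have h1 : actK p e (algebraMap ℤ (HW p e) r) (Kum.mk f) = r • Kum.mk f := by
      rw [AlgHom.commutes, Algebra.algebraMap_eq_smul_one]
      rfl
    have h3 : r • Kum.mk f = Kum.mk (f ^ r) := rfl
    rw [h1, h3]
    exact congrArg Kum.mk (Subtype.ext (Word_wU_algebraMap p e r f).symm)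
  | grade1 x =>
    have h1 : actK p e (FreeAlgebra.ι ℤ x) = TK p e x := FreeAlgebra.lift_ι_apply _ _
    rw [h1]
    have : NeZero x.1 := ⟨x.2.1.ne_zero⟩
    change Kum.mk ⟨heckeU p x.1 x.2.1 (toGood p e x).2.2 f,
      heckeU_mem_Dm p x.1 x.2.1 (toGood p e x).2.2 f.2⟩ = _
    exact congrArg Kum.mk (Subtype.ext (Word_wU_ι p e x f).symm)
  | mul s t hs ht =>
    rw [map_mul, Module.End.mul_apply, ht, hs]
    exact congrArg Kum.mk (Subtype.ext (Word_wU_mul_word p e s t f).symm)
  | add s t hs ht =>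
    rw [map_add, LinearMap.add_apply, hs, ht, ← Kum.mk_mul]
    exact congrArg Kum.mk (Subtype.ext (Word_wU_add_word p e s t f).symm)

theorem isDD_wU (t : HW p e) {g : (FF p)ˣ} (hg : IsDD p e g) : IsDD p e (wU p e t g) := by
  intro σ
  rw [wU_gal, ← wU_div]
  exact wU_mem_Dm p e t (hg σ)

/-- `c_{t g} = t c_g`. -/
theorem coc_wU (t : HW p e) {g : (FF p)ˣ} (hg : IsDD p e g) (σ : GQ) :
    coc p e (wU p e t g) (isDD_wU p e t hg) σ = actK p e t (coc p e g hg σ) := by
  rw [coc, coc, actK_mk]
  refine congrArg Kum.mk (Subtype.ext ?_)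
  change galU p σ (wU p e t g) / wU p e t g = wU p e t (galU p σ g / g)
  rw [wU_gal, ← wU_div]

/-- `Eis` is stable under the Hecke operators (they commute). -/
theorem TK_mem_Eis (r : Idx p e) {x : Kum p e} (hx : x ∈ Eis p e) : TK p e r x ∈ Eis p e := by
  rw [mem_Eis] at hx ⊢
  intro r'
  obtain ⟨k, hk⟩ := hx r'
  refine ⟨k, ?_⟩
  have hc : Commute (TK p e r) (TK p e r') := LinearMap.ext (TK_comm p e r r')
  have hc2 : Commute (TK p e r) ((TK p e r' - ((1 + r'.1 : ℕ) : ℤ) • 1) ^ k) :=
    (hc.sub_right ((Commute.one_right _).smul_right _)).pow_right k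
  rw [← Module.End.mul_apply, ← hc2.eq, Module.End.mul_apply, hk, map_zero]

theorem actK_mem_Eis (t : HW p e) {x : Kum p e} (hx : x ∈ Eis p e) : actK p e t x ∈ Eis p e :=
  lift_mem _ (Eis p e) (fun r _ ha => TK_mem_Eis p e r ha) t hx

/-- `Eis` is Galois stable. -/
theorem gal_mem_Eis (σ : GQ) {x : Kum p e} (hx : x ∈ Eis p e) : galKum p e σ x ∈ Eis p e := by
  rw [mem_Eis] at hx ⊢
  intro r'
  obtain ⟨k, hk⟩ := hx r'
  refine ⟨k, ?_⟩
  have hc : Commute (galKum p e σ).toIntLinearMap (TK p e r') :=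
    LinearMap.ext (TK_gal p e r' σ)
  have hc2 : Commute (galKum p e σ).toIntLinearMap
      ((TK p e r' - ((1 + r'.1 : ℕ) : ℤ) • 1) ^ k) :=
    (hc.sub_right ((Commute.one_right _).smul_right _)).pow_right k
  change ((TK p e r' - ((1 + r'.1 : ℕ) : ℤ) • 1) ^ k) ((galKum p e σ).toIntLinearMap x) = 0
  rw [← Module.End.mul_apply, ← hc2.eq, Module.End.mul_apply, hk, map_zero]

/-- a polynomial in a word acting as the identity on `x`. -/
theorem aeval_apply_of_fixed {A : Type*} [AddCommGroup A] (f : Module.End ℤ A) (P : Polynomial ℤ) {x : A}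
    (hx : f x = x) : Polynomial.aeval f P x = P.eval 1 • x := by
  have hpow : ∀ n : ℕ, (f ^ n) x = x := by
    intro n
    induction n with
    | zero => rfl
    | succ n ih => rw [pow_succ, Module.End.mul_apply, hx, ih]
  induction P using Polynomial.induction_on' with
  | add P Q hP hQ => rw [map_add, LinearMap.add_apply, hP, hQ, Polynomial.eval_add, add_smul]
  | monomial n a =>
    rw [Polynomial.aeval_monomial, Polynomial.eval_monomial, one_pow, mul_one,
      Module.End.mul_apply, hpow, Algebra.algebraMap_eq_smul_one]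
    rfl

end

end Fermat.Agent.S15.F
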